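import Fermat.Agent.S38.IA.H183.RelWall
import Fermat.Agent.S56.Euler.Big.Final

/-!
# Row 37 pivot (Ihara avoidance), Galois side — BASE-BIG-OVER (helper183)

`BaseBigOverStatement` (`RelWall.lean`): (BASE) of row S56 for some finite set of primes `S'`
containing `Smin` AND a prescribed finite set `T` of primes.  This is `H716.BaseBigStatement`
with a lower bound on the big set; the proof is helper366's `Euler.baseBig_of`, word for word,
with (E-BIG) applied to `S₀ ∪ T` instead of `S₀`.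

* `baseBigOver_of      : (∀ p, EulerBigSpec p) → (∀ p S, H2FormulaSpec p S) → BridgeBaseSpec →
                          BaseBigOverStatement`
* `baseBigOver_of_p1   : (S55 inputs of route C′) → (∀ p, H419.P1CharSpec p) →
                          BaseBigOverStatement`     (same inputs as `Euler.baseBig_of_p1`)

Nothing unproved in this file.
-/

set_option autoImplicit false

open Polynomial IsLocalRing

noncomputable section

namespace Fermat.Agent.S38.IA.H183

open Fermat.Agent.S56 Fermat.Agent.S56.Euler Fermat.Agent.S55.PT ExtCitation Module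
  groupCohomology

/-- **BASE-BIG-OVER from E-BIG, H2F and BRIDGE-BASE.** -/
theorem baseBigOver_of (hE : ∀ (p : ℕ) [Fact p.Prime], EulerBigSpec p)
    (hH2 : ∀ (p : ℕ) [Fact p.Prime] (S : Finset Nat.Primes), H2FormulaSpec p S)
    (hB : BridgeBaseSpec) : BaseBigOverStatement := by
  classical
  intro 𝒪 _ _ _ _ _ p ρbar S Smin hyp T hT
  have : Fact p.Prime := ⟨hyp.hp⟩
  obtain ⟨S₀, U, N, Pl, d, hpS₀, hSmin, hU, hfd, hUN, hPl, hd, h0, hch, hminus, hS'⟩ :=
    hB 𝒪 p ρbar S Smin hyp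
  -- the prescribed primes, as a set of primes
  let T' : Finset Nat.Primes := T.attach.image fun q => (⟨q.1, hT q.1 q.2⟩ : Nat.Primes)
  have hT' : ∀ q (hq : q ∈ T), (⟨q, hT q hq⟩ : Nat.Primes) ∈ T' := fun q hq =>
    Finset.mem_image.2 ⟨⟨q, hq⟩, Finset.mem_attach _ _, rfl⟩
  have hS₀T : S₀ ⊆ S₀ ∪ T' := Finset.subset_union_left
  obtain ⟨S', hS₁S', hphi⟩ := hE p hyp.hp2 (S₀ ∪ T') (hS₀T hpS₀) U
    (mem_levels_of_subset hS₀T hU)
  have hS₀S' : S₀ ⊆ S' := hS₀T.trans hS₁S'
  have hphiN := hphi N hfd hUN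
  obtain ⟨hchv, ⟨D, hD, hDunr, hDle⟩, ⟨X, hXfin, hXrep, hXle⟩⟩ := hS' S' hS₀S'
  have hUS' : U ∈ (globalLevels S').levels := mem_levels_of_subset hS₀S' hU
  have hsm : (globalLevels S').IsUSmooth N :=
    ⟨U, hUS', fun s hs a => by rw [hUN s hs]; rfl⟩
  obtain ⟨-, hh2⟩ := hH2 p S' hyp.hp2 (hS₀S' hpS₀) N hfd hsm
  -- the set of primes as a `Finset ℕ`
  refine ⟨S'.image (fun v : Nat.Primes => (v : ℕ)), ?_, ?_, Pl, ?_, D, X, hD, hDunr, hXfin,
    hXrep, ?_⟩
  · intro q hq
    rcases Finset.mem_union.1 hq with hq | hq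
    · obtain ⟨h, hq'⟩ := hSmin q hq
      exact Finset.mem_image.2 ⟨⟨q, h⟩, hS₀S' hq', rfl⟩
    · exact Finset.mem_image.2 ⟨⟨q, hT q hq⟩,
        hS₁S' (Finset.mem_union_right _ (hT' q hq)), rfl⟩
  · intro q hq
    obtain ⟨v, -, rfl⟩ := Finset.mem_image.1 hq
    exact v.2
  · intro v hv
    obtain ⟨w, -, rfl⟩ := Finset.mem_image.1 hv
    exact hPl _ w.2
  · -- the numerical inequality
    have hsum : ∑ v ∈ S'.image (fun v : Nat.Primes => (v : ℕ)),
        finrank (ResidueField 𝒪) ↥(H716.adInv ρbar ((Pl v).decompositionSubgroup ℚ)) =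
        ∑ v : ↥S', finrank (ResidueField 𝒪)
          ↥(H716.adInv ρbar ((Pl (v.1 : ℕ)).decompositionSubgroup ℚ)) := by
      have hinj : ∀ a ∈ S', ∀ b ∈ S', (fun v : Nat.Primes => (v : ℕ)) a =
          (fun v : Nat.Primes => (v : ℕ)) b → a = b := fun a _ b _ h => Subtype.ext h
      rw [Finset.sum_image hinj]
      exact (Finset.sum_coe_sort S' (fun v : Nat.Primes => finrank (ResidueField 𝒪)
        ↥(H716.adInv ρbar ((Pl (v : ℕ)).decompositionSubgroup ℚ)))).symm
    rw [hsum]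
    have hsumd : ∑ v : ↥S', finrank (ZMod p)
        ↥(charHom (cycloLoc p v.1) (Rep.res (rl v.1) N)) =
        d * ∑ v : ↥S', finrank (ResidueField 𝒪)
          ↥(H716.adInv ρbar ((Pl (v.1 : ℕ)).decompositionSubgroup ℚ)) := by
      rw [Finset.mul_sum]
      exact Finset.sum_congr rfl fun v _ => hchv v
    rw [hsumd, hch, add_zero] at hh2
    unfold H419.phi H419.eulerChar at hphiN
    rw [h0, hminus] at hphiN
    have h1 : (finrank (ZMod p) ((globalLevels S').H1 N) : ℤ) =
        finrank (ZMod p) ((globalLevels S').H2 N) + d := by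
      push_cast at hphiN ⊢
      linarith
    have h1' : finrank (ZMod p) ((globalLevels S').H1 N) =
        finrank (ZMod p) ((globalLevels S').H2 N) + d := by exact_mod_cast h1
    have key : d * (finrank (ResidueField 𝒪) ↥X +
        ∑ v : ↥S', finrank (ResidueField 𝒪)
          ↥(H716.adInv ρbar ((Pl (v.1 : ℕ)).decompositionSubgroup ℚ)) + 1) ≤
        d * finrank (ResidueField 𝒪) ↥D := by
      calc d * (finrank (ResidueField 𝒪) ↥X +
            ∑ v : ↥S', finrank (ResidueField 𝒪)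
              ↥(H716.adInv ρbar ((Pl (v.1 : ℕ)).decompositionSubgroup ℚ)) + 1)
          = d * finrank (ResidueField 𝒪) ↥X +
            d * ∑ v : ↥S', finrank (ResidueField 𝒪)
              ↥(H716.adInv ρbar ((Pl (v.1 : ℕ)).decompositionSubgroup ℚ)) + d := by ring
        _ ≤ finrank (ZMod p) ↥(Sha1 (hrl S') (tdual p N)) +
            d * ∑ v : ↥S', finrank (ResidueField 𝒪)
              ↥(H716.adInv ρbar ((Pl (v.1 : ℕ)).decompositionSubgroup ℚ)) + d := by
            gcongr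
        _ = finrank (ZMod p) ((globalLevels S').H1 N) := by rw [h1', hh2]
        _ ≤ d * finrank (ResidueField 𝒪) ↥D := hDle
    exact Nat.le_of_mul_le_mul_left key hd

/-- (E-BIG) and (H2F) from the S55 inputs (route C′) and P1-CHAR: the first half of helper366's
`Euler.baseBig_of_p1`. -/
theorem eulerBig_h2_of_p1
    (h4 : ∀ (p : ℕ) [Fact p.Prime] (S : Finset Nat.Primes), p ≠ 2 → pPrime p ∈ S →
      Surj2GlobSpec p S ∧ Surj2LocSpec p S ∧ InvSpec p S ∧ CapSpec p S)
    (hP1 : ∀ (p : ℕ) [Fact p.Prime], H419.P1CharSpec p) :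
    (∀ (p : ℕ) [Fact p.Prime], EulerBigSpec p) ∧
      ∀ (p : ℕ) [Fact p.Prime] (S : Finset Nat.Primes), H2FormulaSpec p S := by
  have hH2 : ∀ (p : ℕ) [Fact p.Prime] (S : Finset Nat.Primes), H2FormulaSpec p S := by
    intro p _ S hp2 hpS
    obtain ⟨a, b, c, d⟩ := h4 p S hp2 hpS
    exact H29.h2Formula_of_four p S a b c d hp2 hpS
  refine ⟨fun p _ => ?_, hH2⟩
  intro hp2
  refine eulerBig_of_red (H614.red_of H314.lemmaA) (fun S hpS => ?_) (fun S hpS => ?_) ?_ hp2
  · exact H419.phiAdd_of p S H113.les0Spec H113.les1Spec H113.lesMidSpec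
      H724.globalNormalCofinal (H593.finGlob p S)
      (fun N hN hsm => (hH2 p S hp2 hpS N hN hsm).1) (h4 p S hp2 hpS).1
  · exact fun N hN hsm => (hH2 p S hp2 hpS N hN hsm).1
  · refine H419.charEulerBig_of (fun S hp2' hpS => ?_) ?_ H419.clSpec' (hP1 p)
    · obtain ⟨a, b, c, d⟩ := h4 p S hp2' hpS
      exact H765.h2cp_of_four p S a b c d hp2' hpS
    · intro S₀ hpS₀ U hUn hU hχ
      refine H726.exists_sha2_indMu_eq_bot p S₀ (fun T hT => ?_) U hU hUn ?_
      · obtain ⟨a, b, c, d⟩ := h4 p T hp2 (hT hpS₀)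
        exact theoremD_of_four p T (hT hpS₀) a b c d
      · intro u hu
        apply LinearMap.ext
        intro x
        rw [ofChar_ρ_apply, hχ u hu]
        simp

/-- **BASE-BIG-OVER from the S55 inputs (route C′) and P1-CHAR.** -/
theorem baseBigOver_of_p1
    (h4 : ∀ (p : ℕ) [Fact p.Prime] (S : Finset Nat.Primes), p ≠ 2 → pPrime p ∈ S →
      Surj2GlobSpec p S ∧ Surj2LocSpec p S ∧ InvSpec p S ∧ CapSpec p S)
    (hP1 : ∀ (p : ℕ) [Fact p.Prime], H419.P1CharSpec p) : BaseBigOverStatement :=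
  baseBigOver_of (eulerBig_h2_of_p1 h4 hP1).1 (eulerBig_h2_of_p1 h4 hP1).2
    Fermat.Agent.S56.Br.bridgeBase

end Fermat.Agent.S38.IA.H183

end
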