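import Fermat.Agent.S38.IA.H183.ToRelSel

/-!
# Row 37 pivot (Ihara avoidance), Galois side — the UNFRAMED bound `g = r − 3·#Π` (helper183)

Board `coord/HARD.md` v2, cell GAL (3): at a set `Π` of pivot primes (`ρ̄` SCALAR on the
decomposition groups) no frames are needed, and the relative tangent space has dimension
`≤ r − 3·#Π`, `r = #Q`.  This is `RelWall` (`RelWall.lean`) together with `h⁰(D_v, ad⁰ρ̄) = 3`.

* `finrank_adInv_of_scalar` : `ρ̄(H)` scalar, `2 ≠ 0` ⇒ `dim H⁰(H, ad⁰ρ̄) = 3`.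
* `RelSelCobAt 𝒪 p ρbar S Smin Π base` : places `Pl`, a dual frame `D`; for every Taylor–Wiles set
  `Q` killing `D` and every deformation condition `𝒟` finer than `base (Π ∪ Q)` on the dual
  numbers: a space `𝒯` with `dim 𝒯 + 3·#Π ≤ #Q` representing, modulo coboundaries, every tangent
  cocycle of type `𝒟` (and every cocycle which is a coboundary) which is a coboundary on
  `D_{Pl v}` for all `v ∈ Π` (e.g. which VANISHES on these groups).
* `relSelCobAt_of_relWall`, `relSelCobAtOrd_sup`, `relSelCobAtFlat_sup`.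
* `RelTWPrimesCob` / `relTWPrimesCob_of` / `relTWPrimesCobOrd_of` / `relTWPrimesCobFlat_of` :
  the Taylor–Wiles primes (`r` of them for every `n`, the same for all `𝒟`).

Nothing unproved in this file.
-/

set_option autoImplicit false

open Polynomial IsLocalRing

noncomputable section

namespace Fermat.Agent.S38.IA.H183

open Fermat.Agent.S56 Fermat.Agent.S56.H716

section

variable {k : Type} [Field k] (ρbar : ResidualGaloisRep k)

/-- If `ρ̄(H)` consists of scalars, `H⁰(H, ad⁰ρ̄)` is the space of all trace-zero endomorphisms. -/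
theorem adInv_eq_ker_trace_of_scalar (H : Subgroup GQ)
    (hsc : ∀ σ ∈ H, ∃ a : k, ρbar.ρ σ = a • (1 : Module.End k ρbar.V)) :
    adInv ρbar H = LinearMap.ker (LinearMap.trace k ρbar.V) := by
  ext m
  constructor
  · rintro ⟨h1, -⟩
    exact LinearMap.mem_ker.2 h1
  · intro hm
    refine ⟨LinearMap.mem_ker.1 hm, fun σ hσ => ?_⟩
    obtain ⟨a, ha⟩ := hsc σ hσ
    have hinv : ρbar.ρ σ * ρbar.ρ σ⁻¹ = 1 := by rw [← map_mul, mul_inv_cancel, map_one]
    have hcomm : ρbar.ρ σ * m = m * ρbar.ρ σ := by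
      rw [ha, smul_mul_assoc, one_mul, mul_smul_comm, mul_one]
    rw [hcomm, mul_assoc, hinv, mul_one]

/-- The space of trace-zero endomorphisms of `V` has dimension `3` (`p` odd). -/
theorem finrank_ker_trace (h2 : (2 : k) ≠ 0) :
    Module.finrank k (LinearMap.ker (LinearMap.trace k ρbar.V)) = 3 := by
  have h1 := LinearMap.finrank_range_add_finrank_ker (LinearMap.trace k ρbar.V)
  have htr1 : LinearMap.trace k ρbar.V (1 : Module.End k ρbar.V) = 2 := by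
    rw [LinearMap.trace_one, ρbar.finrank_eq]
    norm_cast
  have hsurj : Function.Surjective (LinearMap.trace k ρbar.V) := by
    intro x
    refine ⟨(x / 2) • (1 : Module.End k ρbar.V), ?_⟩
    rw [map_smul, htr1, smul_eq_mul]
    field_simp
  have h3 : Module.finrank k (LinearMap.range (LinearMap.trace k ρbar.V)) = 1 := by
    rw [LinearMap.range_eq_top.2 hsurj, finrank_top, Module.finrank_self]
  have h4 : Module.finrank k (ρbar.V →ₗ[k] ρbar.V) = 4 := by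
    rw [Module.finrank_linearMap, ρbar.finrank_eq]
  rw [h3, h4] at h1
  omega

/-- `dim H⁰(H, ad⁰ρ̄) = 3` when `ρ̄(H)` consists of scalars (`p` odd). -/
theorem finrank_adInv_of_scalar (h2 : (2 : k) ≠ 0) (H : Subgroup GQ)
    (hsc : ∀ σ ∈ H, ∃ a : k, ρbar.ρ σ = a • (1 : Module.End k ρbar.V)) :
    Module.finrank k (adInv ρbar H) = 3 := by
  rw [adInv_eq_ker_trace_of_scalar ρbar H hsc]
  exact finrank_ker_trace ρbar h2

end

section

variable (𝒪 : Type) [CommRing 𝒪] [IsDomain 𝒪] [IsDiscreteValuationRing 𝒪]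
  [IsAdicComplete (maximalIdeal 𝒪) 𝒪]
  (p : ℕ) (ρbar : ResidualGaloisRep (ResidueField 𝒪)) (S Smin T : Finset ℕ)

/-- (REL-SEL-COB-AT) the unframed relative Selmer bound at a set `T` of pivot primes. -/
def RelSelCobAt (base : Finset ℕ → DefCond 𝒪) : Prop :=
  ∃ Pl : ℕ → ValuationSubring Qb, (∀ v ∈ Smin ∪ T, (Pl v).LiesOverPrime v) ∧
    ∃ D : Submodule (ResidueField 𝒪) (GQ → Module.End (ResidueField 𝒪) ρbar.V),
      IsDualFrame ρbar p D ∧
      ∀ Q : Finset ℕ, (∀ q' ∈ Q, IsTWPrime ρbar p S q') → Kills ρbar p D Q →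
        ∀ 𝒟 : DefCond 𝒪,
          (∀ ρ' : GaloisRepAdic (DualNumber (ResidueField 𝒪)),
            @𝒟 (DualNumber (ResidueField 𝒪)) _ _ (tanAlgebra 𝒪) ρ' →
              @base (T ∪ Q) (DualNumber (ResidueField 𝒪)) _ _ (tanAlgebra 𝒪) ρ') →
          ∃ 𝒯 : Submodule (ResidueField 𝒪) (GQ → Module.End (ResidueField 𝒪) ρbar.V),
            Module.Finite (ResidueField 𝒪) 𝒯 ∧
            Module.finrank (ResidueField 𝒪) 𝒯 + 3 * T.card ≤ Q.card ∧
            ∀ c, (IsTanCocycle 𝒪 ρbar 𝒟 c ∨ (IsAdCocycle ρbar c ∧ IsAdCoboundary ρbar c)) →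
              (∀ v ∈ T, IsAdCoboundaryOn ρbar ((Pl v).decompositionSubgroup ℚ) c) →
              ∃ t ∈ 𝒯, IsAdCoboundary ρbar (c - t)

/-- `REL-SEL-COB-AT(base) ⇐ LOC-ANY(base) + REL-WALL`, when `ρ̄` is scalar on the decomposition
groups over `T`. -/
theorem relSelCobAt_of_relWall (hyp : Hyp 𝒪 p ρbar S Smin)
    (hsc : ∀ v ∈ T, ∀ P : ValuationSubring Qb, P.LiesOverPrime v →
      ∀ σ ∈ P.decompositionSubgroup ℚ,
        ∃ a : ResidueField 𝒪, ρbar.ρ σ = a • (1 : Module.End (ResidueField 𝒪) ρbar.V))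
    (base : Finset ℕ → DefCond 𝒪) (hloc : LocAny 𝒪 ρbar Smin base)
    (hw : RelWall 𝒪 p ρbar S Smin T) : RelSelCobAt 𝒪 p ρbar S Smin T base := by
  obtain ⟨Pl, hPl, D, hD, hW⟩ := hw
  obtain ⟨Λ, δ, hb, hsel⟩ := hloc Pl fun v hv => hPl v (Finset.mem_union_left _ hv)
  refine ⟨Pl, hPl, D, hD, fun Q hQ hK 𝒟 h𝒟 => ?_⟩
  obtain ⟨𝒯, h1, h2, h3⟩ := hW Λ δ hb Q hQ hK
  have h0 : ∑ v ∈ T, Module.finrank (ResidueField 𝒪)
      (adInv ρbar ((Pl v).decompositionSubgroup ℚ)) = 3 * T.card := by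
    rw [Finset.sum_congr rfl fun v hv => finrank_adInv_of_scalar ρbar
      (H596.two_ne_zero_of_hyp hyp) _
      (hsc v hv (Pl v) (hPl v (Finset.mem_union_right _ hv)))]
    rw [Finset.sum_const, smul_eq_mul, mul_comm]
  rw [h0] at h2
  refine ⟨𝒯, h1, h2, fun c hc hstr => ?_⟩
  rcases hc with hc | ⟨hc, hcb⟩
  · obtain ⟨hcoc, ρ', hl, hcond⟩ := hc
    exact h3 c ⟨hsel (T ∪ Q) c ⟨hcoc, ρ', hl, h𝒟 ρ' hcond⟩, hstr⟩
  · exact h3 c ⟨isSelCocycle_of_isAdCoboundary hyp Pl Λ (T ∪ Q) hc hcb, hstr⟩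

end

section

variable (𝒪 : Type) [CommRing 𝒪] [IsDomain 𝒪] [IsDiscreteValuationRing 𝒪]
  [IsAdicComplete (maximalIdeal 𝒪) 𝒪] [Finite (ResidueField 𝒪)]
  (p : ℕ) (ρbar : ResidualGaloisRep (ResidueField 𝒪)) (S Smin : Finset ℕ)

/-- **(REL-SEL-COB-AT-ord)** for some `S'' ⊇ S ∪ T`, from the leaves. -/
theorem relSelCobAtOrd_sup (hmin : LocMinStatement) (hord : LocOrdPStatement)
    (hb : BaseBigOverStatement) (hr : RecQSubStatement) (hur : UrCountStatement)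
    (hyp : Hyp 𝒪 p ρbar S Smin)
    (T : Finset ℕ) (hT : ∀ q ∈ T, q.Prime) (hdisj : Disjoint Smin T)
    (hsc : ∀ v ∈ T, ∀ P : ValuationSubring Qb, P.LiesOverPrime v →
      ∀ σ ∈ P.decompositionSubgroup ℚ,
        ∃ a : ResidueField 𝒪, ρbar.ρ σ = a • (1 : Module.End (ResidueField 𝒪) ρbar.V)) :
    ∃ S'' : Finset ℕ, S ∪ T ⊆ S'' ∧ (∀ q ∈ S'', q.Prime) ∧ Hyp 𝒪 p ρbar S'' Smin ∧
      RelSelCobAt 𝒪 p ρbar S'' Smin T (ordCond 𝒪 p Smin) := by
  obtain ⟨S'', h1, h2, hyp'', hw⟩ := exists_relWall_sup 𝒪 p ρbar S Smin hb hr hur hyp T hT hdisj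
  exact ⟨S'', h1, h2, hyp'', relSelCobAt_of_relWall 𝒪 p ρbar S'' Smin T hyp'' hsc
    (ordCond 𝒪 p Smin) (locOrdAny_of 𝒪 p ρbar S'' Smin hmin hord hyp'') hw⟩

/-- **(REL-SEL-COB-AT-flat)** for some `S'' ⊇ S ∪ T`, from the leaves. -/
theorem relSelCobAtFlat_sup (hmin : LocMinStatement) (hflat : LocFlatPStatement)
    (hb : BaseBigOverStatement) (hr : RecQSubStatement) (hur : UrCountStatement)
    (hyp : Hyp 𝒪 p ρbar S Smin)
    (T : Finset ℕ) (hT : ∀ q ∈ T, q.Prime) (hdisj : Disjoint Smin T)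
    (hsc : ∀ v ∈ T, ∀ P : ValuationSubring Qb, P.LiesOverPrime v →
      ∀ σ ∈ P.decompositionSubgroup ℚ,
        ∃ a : ResidueField 𝒪, ρbar.ρ σ = a • (1 : Module.End (ResidueField 𝒪) ρbar.V)) :
    ∃ S'' : Finset ℕ, S ∪ T ⊆ S'' ∧ (∀ q ∈ S'', q.Prime) ∧ Hyp 𝒪 p ρbar S'' Smin ∧
      RelSelCobAt 𝒪 p ρbar S'' Smin T (flatCond 𝒪 p Smin) := by
  obtain ⟨S'', h1, h2, hyp'', hw⟩ := exists_relWall_sup 𝒪 p ρbar S Smin hb hr hur hyp T hT hdisj
  exact ⟨S'', h1, h2, hyp'', relSelCobAt_of_relWall 𝒪 p ρbar S'' Smin T hyp'' hsc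
    (flatCond 𝒪 p Smin) (locFlatAny_of 𝒪 p ρbar S'' Smin hmin hflat hyp'') hw⟩

/-- The conclusion of the unframed main theorem of the Galois side at a set `T` of pivots, for
one family `base` of deformation conditions: `r` Taylor–Wiles primes for every `n`, and the
relative tangent space of every condition finer than `base (T ∪ Q_n)` has dimension
`≤ r − 3·#T`. -/
def RelTWPrimesCob (T : Finset ℕ) (base : Finset ℕ → DefCond 𝒪) : Prop :=
  ∃ (r : ℕ) (Pl : ℕ → ValuationSubring Qb), (∀ v ∈ T, (Pl v).LiesOverPrime v) ∧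
    ∀ n : ℕ, ∃ qv : Fin r → ℕ, Function.Injective qv ∧
      (∀ i, (qv i).Prime ∧ qv i ∉ S ∧ qv i ∉ T ∧ p ^ (n + 1) ∣ qv i - 1) ∧
      (∀ i, ∀ P' : ValuationSubring Qb, P'.LiesOverPrime (qv i) →
        ∀ φ : GQ, P'.IsFrobeniusAt φ (qv i) →
          ∃ α β : ResidueField 𝒪, α ≠ β ∧
            LinearMap.charpoly (ρbar.ρ φ) = (X - C α) * (X - C β)) ∧
      ∀ 𝒟 : DefCond 𝒪,
        (∀ ρ' : GaloisRepAdic (DualNumber (ResidueField 𝒪)),
          @𝒟 (DualNumber (ResidueField 𝒪)) _ _ (tanAlgebra 𝒪) ρ' →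
            @base (T ∪ Finset.univ.image qv) (DualNumber (ResidueField 𝒪)) _ _
              (tanAlgebra 𝒪) ρ') →
        ∃ 𝒯 : Submodule (ResidueField 𝒪) (GQ → Module.End (ResidueField 𝒪) ρbar.V),
          Module.Finite (ResidueField 𝒪) 𝒯 ∧
          Module.finrank (ResidueField 𝒪) 𝒯 + 3 * T.card ≤ r ∧
          ∀ c, (IsTanCocycle 𝒪 ρbar 𝒟 c ∨ (IsAdCocycle ρbar c ∧ IsAdCoboundary ρbar c)) →
            (∀ v ∈ T, IsAdCoboundaryOn ρbar ((Pl v).decompositionSubgroup ℚ) c) →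
            ∃ t ∈ 𝒯, IsAdCoboundary ρbar (c - t)

/-- **Taylor–Wiles primes for the unframed problem at the pivots `T`**, from (TWP) and
(REL-SEL-COB-AT) for some `S'' ⊇ S ∪ T`. -/
theorem relTWPrimesCob_of (hTWP : TWPrimesStatement) (T : Finset ℕ)
    (base : Finset ℕ → DefCond 𝒪)
    (h : ∃ S'' : Finset ℕ, S ∪ T ⊆ S'' ∧ (∀ q' ∈ S'', q'.Prime) ∧ Hyp 𝒪 p ρbar S'' Smin ∧
      RelSelCobAt 𝒪 p ρbar S'' Smin T base) :
    RelTWPrimesCob 𝒪 p ρbar S T base := by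
  classical
  obtain ⟨S'', hSS'', -, hyp'', Pl, hPl, D, hD, hsel⟩ := h
  refine ⟨Module.finrank (ResidueField 𝒪) D, Pl,
    fun v hv => hPl v (Finset.mem_union_right _ hv), fun n => ?_⟩
  obtain ⟨qv, hinj, hq, hfrob, hkill⟩ := hTWP 𝒪 p ρbar S'' Smin hyp'' D hD n
  refine ⟨qv, hinj, fun i => ⟨(hq i).1, fun hi => (hq i).2.1 (hSS'' (Finset.mem_union_left _ hi)),
    fun hi => (hq i).2.1 (hSS'' (Finset.mem_union_right _ hi)), (hq i).2.2⟩, hfrob,
    fun 𝒟 h𝒟 => ?_⟩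
  have hTWQ : ∀ q' ∈ Finset.univ.image qv, IsTWPrime ρbar p S'' q' := by
    intro q' hqQ
    obtain ⟨i, -, rfl⟩ := Finset.mem_image.mp hqQ
    refine ⟨(hq i).1, (hq i).2.1, ?_, hfrob i⟩
    exact dvd_trans (dvd_pow_self p (Nat.succ_ne_zero n)) (hq i).2.2
  have hQcard : (Finset.univ.image qv).card = Module.finrank (ResidueField 𝒪) D := by
    rw [Finset.card_image_of_injective _ hinj, Finset.card_univ, Fintype.card_fin]
  have := hsel (Finset.univ.image qv) hTWQ hkill 𝒟 h𝒟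
  rwa [hQcard] at this

/-- The unframed main theorem (strict-ordinary half) from the leaves of row S56 and
BASE-BIG-OVER. -/
theorem relTWPrimesCobOrd_of (hTWP : TWPrimesStatement) (hmin : LocMinStatement)
    (hord : LocOrdPStatement) (hb : BaseBigOverStatement) (hr : RecQSubStatement)
    (hur : UrCountStatement) (hyp : Hyp 𝒪 p ρbar S Smin)
    (T : Finset ℕ) (hT : ∀ q ∈ T, q.Prime) (hdisj : Disjoint Smin T)
    (hsc : ∀ v ∈ T, ∀ P : ValuationSubring Qb, P.LiesOverPrime v →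
      ∀ σ ∈ P.decompositionSubgroup ℚ,
        ∃ a : ResidueField 𝒪, ρbar.ρ σ = a • (1 : Module.End (ResidueField 𝒪) ρbar.V)) :
    RelTWPrimesCob 𝒪 p ρbar S T (ordCond 𝒪 p Smin) :=
  relTWPrimesCob_of 𝒪 p ρbar S Smin hTWP T (ordCond 𝒪 p Smin)
    (relSelCobAtOrd_sup 𝒪 p ρbar S Smin hmin hord hb hr hur hyp T hT hdisj hsc)

/-- The unframed main theorem (flat half) from the leaves of row S56 and BASE-BIG-OVER. -/
theorem relTWPrimesCobFlat_of (hTWP : TWPrimesStatement) (hmin : LocMinStatement)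
    (hflat : LocFlatPStatement) (hb : BaseBigOverStatement) (hr : RecQSubStatement)
    (hur : UrCountStatement) (hyp : Hyp 𝒪 p ρbar S Smin)
    (T : Finset ℕ) (hT : ∀ q ∈ T, q.Prime) (hdisj : Disjoint Smin T)
    (hsc : ∀ v ∈ T, ∀ P : ValuationSubring Qb, P.LiesOverPrime v →
      ∀ σ ∈ P.decompositionSubgroup ℚ,
        ∃ a : ResidueField 𝒪, ρbar.ρ σ = a • (1 : Module.End (ResidueField 𝒪) ρbar.V)) :
    RelTWPrimesCob 𝒪 p ρbar S T (flatCond 𝒪 p Smin) :=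
  relTWPrimesCob_of 𝒪 p ρbar S Smin hTWP T (flatCond 𝒪 p Smin)
    (relSelCobAtFlat_sup 𝒪 p ρbar S Smin hmin hflat hb hr hur hyp T hT hdisj hsc)

end

end Fermat.Agent.S38.IA.H183

end
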