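import Fermat.Agent.S38.IA.H183.Main
import Fermat.Agent.S38.IA.H183.Unframed
import Fermat.Agent.S38.IA.H183.BaseOver
import Fermat.Agent.S56.FinalC
import Fermat.Agent.S56.FL.LocFlatPMain
import Fermat.Agent.S56.RQ.Closed
import Fermat.Agent.S56.Euler.H184.P1Spec
import Fermat.Agent.S55.Closed.FourH904

/-!
# Row 37 pivot (Ihara avoidance), Galois side — MAIN THEOREM, UNCONDITIONAL (helper183)

All leaves of row S56 and the four S55 inputs are on main and are plugged in here: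

* `baseBigOver : BaseBigOverStatement`
* `relTWPrimesOrd`, `relTWPrimesFlat` : `S56.Hyp 𝒪 p ρbar S Smin → q.Prime → q ∉ Smin →
    RelTWPrimes 𝒪 p ρbar S q (ordCond 𝒪 p Smin)`  resp. `(flatCond 𝒪 p Smin)`.
* `relTWPrimesCobOrd`, `relTWPrimesCobFlat` : the unframed form at a set `T` of pivots
  (`ρ̄` scalar on the decomposition groups over `T`): `g = r − 3·#T`.

Nothing unproved in this file.
-/

set_option autoImplicit false

open Polynomial IsLocalRing

noncomputable section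

namespace Fermat.Agent.S38.IA.H183

open Fermat.Agent.S56 Fermat.Agent.S56.H716

/-- **BASE-BIG-OVER**, unconditionally. -/
theorem baseBigOver : BaseBigOverStatement :=
  baseBigOver_of_p1
    (fun p _ S hp2 hpS => Fermat.Agent.S55.Closed.H904.four p S hp2 hpS)
    (fun p _ => Fermat.Agent.S56.Euler.H184.p1CharSpec p)

section

variable (𝒪 : Type) [CommRing 𝒪] [IsDomain 𝒪] [IsDiscreteValuationRing 𝒪]
  [IsAdicComplete (maximalIdeal 𝒪) 𝒪] [Finite (ResidueField 𝒪)]
  (p : ℕ) (ρbar : ResidualGaloisRep (ResidueField 𝒪)) (S Smin : Finset ℕ)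

/-- **Taylor–Wiles primes for the problem framed at `q`, strict-ordinary half.** -/
theorem relTWPrimesOrd (hyp : Hyp 𝒪 p ρbar S Smin) (q : ℕ) (hq : q.Prime) (hqS : q ∉ Smin) :
    RelTWPrimes 𝒪 p ρbar S q (ordCond 𝒪 p Smin) :=
  relTWPrimesOrd_of 𝒪 p ρbar S Smin twPrimes H606.locMin H656.locOrdP baseBigOver
    RQ.recQSubClosed H431.urCount hyp q hq hqS

/-- **Taylor–Wiles primes for the problem framed at `q`, flat half.** -/
theorem relTWPrimesFlat (hyp : Hyp 𝒪 p ρbar S Smin) (q : ℕ) (hq : q.Prime) (hqS : q ∉ Smin) :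
    RelTWPrimes 𝒪 p ρbar S q (flatCond 𝒪 p Smin) :=
  relTWPrimesFlat_of 𝒪 p ρbar S Smin twPrimes H606.locMin FL.locFlatPMain baseBigOver
    RQ.recQSubClosed H431.urCount hyp q hq hqS

/-- **Taylor–Wiles primes for the unframed problem at the pivots `T`, strict-ordinary half.** -/
theorem relTWPrimesCobOrd (hyp : Hyp 𝒪 p ρbar S Smin)
    (T : Finset ℕ) (hT : ∀ q ∈ T, q.Prime) (hdisj : Disjoint Smin T)
    (hsc : ∀ v ∈ T, ∀ P : ValuationSubring Qb, P.LiesOverPrime v →
      ∀ σ ∈ P.decompositionSubgroup ℚ,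
        ∃ a : ResidueField 𝒪, ρbar.ρ σ = a • (1 : Module.End (ResidueField 𝒪) ρbar.V)) :
    RelTWPrimesCob 𝒪 p ρbar S T (ordCond 𝒪 p Smin) :=
  relTWPrimesCobOrd_of 𝒪 p ρbar S Smin twPrimes H606.locMin H656.locOrdP baseBigOver
    RQ.recQSubClosed H431.urCount hyp T hT hdisj hsc

/-- **Taylor–Wiles primes for the unframed problem at the pivots `T`, flat half.** -/
theorem relTWPrimesCobFlat (hyp : Hyp 𝒪 p ρbar S Smin)
    (T : Finset ℕ) (hT : ∀ q ∈ T, q.Prime) (hdisj : Disjoint Smin T)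
    (hsc : ∀ v ∈ T, ∀ P : ValuationSubring Qb, P.LiesOverPrime v →
      ∀ σ ∈ P.decompositionSubgroup ℚ,
        ∃ a : ResidueField 𝒪, ρbar.ρ σ = a • (1 : Module.End (ResidueField 𝒪) ρbar.V)) :
    RelTWPrimesCob 𝒪 p ρbar S T (flatCond 𝒪 p Smin) :=
  relTWPrimesCobFlat_of 𝒪 p ρbar S Smin twPrimes H606.locMin FL.locFlatPMain baseBigOver
    RQ.recQSubClosed H431.urCount hyp T hT hdisj hsc

end

end Fermat.Agent.S38.IA.H183

end
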