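import Fermat.Agent.S38.IA.H183.RelWall

/-!
# Row 37 pivot (Ihara avoidance), Galois side — the FRAMED WALL (helper183)

Plain-function language of `Fermat/Agent/S56/H716`.  Notation of `RelWall.lean`.

A tangent vector of the deformation ring framed at `T` (`R_Q[[z_{v,1}, z_{v,2}, z_{v,3}]]_{v ∈ T}`)
RELATIVE to the local lifting rings at `T` is a pair `(c, y)`: `c` a Selmer cocycle (no condition
at `T`), `y v ∈ End V` (`v ∈ T`) a *frame*: `c = ∂(y v)` on `D_{Pl v}`; two pairs are equivalent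
when they differ by a *framed coboundary* `(∂m, (m + a_v)_v)`, `a_v` scalars.

* `IsFrameOf`, `IsFramedCoboundary`, `framedSpace`.
* `FramedWall 𝒪 p ρbar S Smin T` : the pairs `(c, y)` are represented, modulo framed coboundaries,
  by a space of dimension `≤ #Q`.
* `framedWall_of_relWall : (2 : k) ≠ 0 → RelWall → FramedWall`
  (`dim = dim 𝒯 + ∑_{v ∈ T} h⁰(D_v, ad⁰ρ̄) ≤ #Q`).
* `VanishingWall 𝒪 p ρbar S Smin q` (`T = {q}`): the Selmer cocycles VANISHING on `D_{Pl q}`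
  lie in a space of dimension `≤ #Q`;  `vanishingWall_of_framedWall`.

Nothing unproved in this file.
-/

set_option autoImplicit false

open Polynomial IsLocalRing

noncomputable section

namespace Fermat.Agent.S38.IA.H183

open Fermat.Agent.S56 Fermat.Agent.S56.H716

section

variable {k : Type} [Field k] (ρbar : ResidualGaloisRep k)

/-- `y` is a frame of the cocycle `c` along `T`: `c = ∂(y v)` on the decomposition group of the
place `Pl v`, for every `v ∈ T`. -/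
def IsFrameOf (Pl : ℕ → ValuationSubring Qb) (T : Finset ℕ)
    (c : GQ → Module.End k ρbar.V) (y : ℕ → Module.End k ρbar.V) : Prop :=
  ∀ v ∈ T, ∀ σ ∈ (Pl v).decompositionSubgroup ℚ, c σ = ρbar.ρ σ * y v * ρbar.ρ σ⁻¹ - y v

/-- Framed coboundaries: `(∂m, (m + a_v)_{v ∈ T})`, `a_v` scalars. -/
def IsFramedCoboundary (T : Finset ℕ)
    (x : (GQ → Module.End k ρbar.V) × (ℕ → Module.End k ρbar.V)) : Prop :=
  ∃ m : Module.End k ρbar.V, (∀ σ, x.1 σ = ρbar.ρ σ * m * ρbar.ρ σ⁻¹ - m) ∧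
    ∀ v ∈ T, ∃ a : k, x.2 v = m + a • (1 : Module.End k ρbar.V)

/-- The framed pairs `(t, y)` with `t ∈ 𝒯`, `y v` a trace-zero frame of `t` at `v ∈ T` and
`y v = 0` for `v ∉ T`. -/
def framedSpace (Pl : ℕ → ValuationSubring Qb) (T : Finset ℕ)
    (𝒯 : Submodule k (GQ → Module.End k ρbar.V)) :
    Submodule k ((GQ → Module.End k ρbar.V) × (ℕ → Module.End k ρbar.V)) where
  carrier := {x | x.1 ∈ 𝒯 ∧
    (∀ v ∈ T, LinearMap.trace k ρbar.V (x.2 v) = 0 ∧
      ∀ σ ∈ (Pl v).decompositionSubgroup ℚ,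
        x.1 σ = ρbar.ρ σ * x.2 v * ρbar.ρ σ⁻¹ - x.2 v) ∧
    ∀ v, v ∉ T → x.2 v = 0}
  add_mem' := by
    rintro a b ⟨ha1, ha2, ha3⟩ ⟨hb1, hb2, hb3⟩
    refine ⟨Submodule.add_mem _ ha1 hb1, fun v hv => ⟨?_, fun σ hσ => ?_⟩, fun v hv => ?_⟩
    · simp only [Prod.snd_add, Pi.add_apply, map_add, (ha2 v hv).1, (hb2 v hv).1, add_zero]
    · simp only [Prod.fst_add, Prod.snd_add, Pi.add_apply, (ha2 v hv).2 σ hσ,
        (hb2 v hv).2 σ hσ, mul_add, add_mul]
      abel
    · simp only [Prod.snd_add, Pi.add_apply, ha3 v hv, hb3 v hv, add_zero]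
  zero_mem' := by
    refine ⟨Submodule.zero_mem _, fun v _ => ⟨?_, fun σ _ => ?_⟩, fun v _ => rfl⟩
    · simp
    · simp
  smul_mem' := by
    rintro r a ⟨ha1, ha2, ha3⟩
    refine ⟨Submodule.smul_mem _ r ha1, fun v hv => ⟨?_, fun σ hσ => ?_⟩, fun v hv => ?_⟩
    · simp only [Prod.smul_snd, Pi.smul_apply, map_smul, (ha2 v hv).1, smul_zero]
    · simp only [Prod.smul_fst, Prod.smul_snd, Pi.smul_apply, (ha2 v hv).2 σ hσ,
        mul_smul_comm, smul_mul_assoc, smul_sub]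
    · simp only [Prod.smul_snd, Pi.smul_apply, ha3 v hv, smul_zero]

/-- The framed space over a finite-dimensional `𝒯` is finite-dimensional, of dimension
`≤ dim 𝒯 + ∑_{v ∈ T} h⁰(D_{Pl v}, ad⁰ρ̄)`. -/
theorem framedSpace_finrank_le (Pl : ℕ → ValuationSubring Qb) (T : Finset ℕ)
    (𝒯 : Submodule k (GQ → Module.End k ρbar.V)) [Module.Finite k 𝒯] :
    Module.Finite k (framedSpace ρbar Pl T 𝒯) ∧
      Module.finrank k (framedSpace ρbar Pl T 𝒯) ≤ Module.finrank k 𝒯 +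
        ∑ v ∈ T, Module.finrank k (adInv ρbar ((Pl v).decompositionSubgroup ℚ)) := by
  classical
  -- an injective linear map into a finite-dimensional space
  let J : framedSpace ρbar Pl T 𝒯 →ₗ[k] 𝒯 × ((v : ↥T) → Module.End k ρbar.V) :=
    { toFun := fun x => (⟨x.1.1, x.2.1⟩, fun v => x.1.2 v.1)
      map_add' := fun x y => rfl
      map_smul' := fun r x => rfl }
  have hJ : Function.Injective J := by
    intro x y hxy
    have h1 : x.1.1 = y.1.1 := congrArg (fun z => (z.1 : GQ → Module.End k ρbar.V)) hxy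
    have h2 : ∀ v : ↥T, x.1.2 v.1 = y.1.2 v.1 := fun v => congrFun (congrArg Prod.snd hxy) v
    apply Subtype.ext
    refine Prod.ext h1 (funext fun v => ?_)
    by_cases hv : v ∈ T
    · exact h2 ⟨v, hv⟩
    · rw [x.2.2.2 v hv, y.2.2.2 v hv]
  have : Module.Finite k (framedSpace ρbar Pl T 𝒯) := Module.Finite.of_injective J hJ
  refine ⟨inferInstance, ?_⟩
  let π : framedSpace ρbar Pl T 𝒯 →ₗ[k] 𝒯 :=
    { toFun := fun x => ⟨x.1.1, x.2.1⟩
      map_add' := fun x y => rfl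
      map_smul' := fun r x => rfl }
  have hker : ∀ x : LinearMap.ker π, (x.1.1.1 : GQ → Module.End k ρbar.V) = 0 := fun x =>
    congrArg (fun z : 𝒯 => (z : GQ → Module.End k ρbar.V)) (LinearMap.mem_ker.1 x.2)
  let ι : LinearMap.ker π →ₗ[k]
      ((v : ↥T) → adInv ρbar ((Pl v.1).decompositionSubgroup ℚ)) :=
    { toFun := fun x v => ⟨x.1.1.2 v.1, (x.1.2.2.1 v.1 v.2).1, fun σ hσ => by
        have h := (x.1.2.2.1 v.1 v.2).2 σ hσ
        rw [hker x, Pi.zero_apply] at h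
        exact (sub_eq_zero.1 h.symm)⟩
      map_add' := fun x y => rfl
      map_smul' := fun r x => rfl }
  have hι : Function.Injective ι := by
    intro x y hxy
    have h2 : ∀ v : ↥T, x.1.1.2 v.1 = y.1.1.2 v.1 := fun v =>
      congrArg (fun z : adInv ρbar ((Pl v.1).decompositionSubgroup ℚ) =>
        (z : Module.End k ρbar.V)) (congrFun hxy v)
    apply Subtype.ext
    apply Subtype.ext
    refine Prod.ext ((hker x).trans (hker y).symm) (funext fun v => ?_)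
    by_cases hv : v ∈ T
    · exact h2 ⟨v, hv⟩
    · rw [x.1.2.2.2 v hv, y.1.2.2.2 v hv]
  have h1 := LinearMap.finrank_range_add_finrank_ker π
  have h3 : Module.finrank k (LinearMap.range π) ≤ Module.finrank k 𝒯 :=
    Submodule.finrank_le _
  have h4 : Module.finrank k (LinearMap.ker π) ≤
      ∑ v ∈ T, Module.finrank k (adInv ρbar ((Pl v).decompositionSubgroup ℚ)) := by
    calc Module.finrank k (LinearMap.ker π)
        ≤ Module.finrank k ((v : ↥T) → adInv ρbar ((Pl v.1).decompositionSubgroup ℚ)) :=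
          LinearMap.finrank_le_finrank_of_injective hι
      _ = ∑ v : ↥T, Module.finrank k (adInv ρbar ((Pl v.1).decompositionSubgroup ℚ)) :=
          Module.finrank_pi_fintype k
      _ = ∑ v ∈ T, Module.finrank k (adInv ρbar ((Pl v).decompositionSubgroup ℚ)) :=
          Finset.sum_coe_sort T fun v =>
            Module.finrank k (adInv ρbar ((Pl v).decompositionSubgroup ℚ))
  omega

end

section

variable (𝒪 : Type) [CommRing 𝒪] [IsDomain 𝒪] [IsDiscreteValuationRing 𝒪]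
  (p : ℕ) (ρbar : ResidualGaloisRep (ResidueField 𝒪)) (S Smin T : Finset ℕ)

/-- (FRAMED-WALL) for one residual representation: the framed pairs `(c, y)` are represented,
modulo framed coboundaries, by a space of dimension `≤ #Q`. -/
def FramedWall : Prop :=
  ∃ Pl : ℕ → ValuationSubring Qb, (∀ v ∈ Smin ∪ T, (Pl v).LiesOverPrime v) ∧
    ∃ D : Submodule (ResidueField 𝒪) (GQ → Module.End (ResidueField 𝒪) ρbar.V),
      IsDualFrame ρbar p D ∧
      ∀ (Λ : ℕ → Submodule (ResidueField 𝒪) (GQ → Module.End (ResidueField 𝒪) ρbar.V))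
        (δ : ℕ → ℕ), LocBounds ρbar Pl Λ δ Smin →
        ∀ Q : Finset ℕ, (∀ q ∈ Q, IsTWPrime ρbar p S q) → Kills ρbar p D Q →
          ∃ F : Submodule (ResidueField 𝒪)
              ((GQ → Module.End (ResidueField 𝒪) ρbar.V) ×
                (ℕ → Module.End (ResidueField 𝒪) ρbar.V)),
            Module.Finite (ResidueField 𝒪) F ∧
            Module.finrank (ResidueField 𝒪) F ≤ Q.card ∧
            ∀ c y, IsSelCocycle ρbar Pl Λ Smin (T ∪ Q) c → IsFrameOf ρbar Pl T c y →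
              ∃ t ∈ F, IsFramedCoboundary ρbar T ((c, y) - t)

/-- **Glue** `FRAMED-WALL ⇐ REL-WALL` (`p` odd). -/
theorem framedWall_of_relWall (h2 : (2 : ResidueField 𝒪) ≠ 0)
    (hw : RelWall 𝒪 p ρbar S Smin T) : FramedWall 𝒪 p ρbar S Smin T := by
  classical
  obtain ⟨Pl, hPl, D, hD, hW⟩ := hw
  refine ⟨Pl, hPl, D, hD, fun Λ δ hΛ Q hQ hK => ?_⟩
  obtain ⟨𝒯, h𝒯fin, h𝒯dim, h𝒯⟩ := hW Λ δ hΛ Q hQ hK
  have := h𝒯fin
  obtain ⟨hFfin, hFdim⟩ := framedSpace_finrank_le ρbar Pl T 𝒯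
  refine ⟨framedSpace ρbar Pl T 𝒯, hFfin, hFdim.trans h𝒯dim, fun c y hc hy => ?_⟩
  obtain ⟨t, ht, m, hm⟩ := h𝒯 c ⟨hc, fun v hv => ⟨y v, fun σ hσ => hy v hv σ hσ⟩⟩
  have htr1 : LinearMap.trace (ResidueField 𝒪) ρbar.V (1 : Module.End (ResidueField 𝒪) ρbar.V)
      = 2 := by
    rw [LinearMap.trace_one, ρbar.finrank_eq]
    norm_cast
  have hconj : ∀ (σ : GQ) (a : ResidueField 𝒪),
      ρbar.ρ σ * (a • (1 : Module.End (ResidueField 𝒪) ρbar.V)) * ρbar.ρ σ⁻¹ = a • 1 := by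
    intro σ a
    rw [mul_smul_comm, mul_one, smul_mul_assoc, ← map_mul, mul_inv_cancel, map_one]
  let a : ℕ → ResidueField 𝒪 := fun v =>
    LinearMap.trace (ResidueField 𝒪) ρbar.V (y v - m) / 2
  let y' : ℕ → Module.End (ResidueField 𝒪) ρbar.V := fun v =>
    if v ∈ T then y v - m - a v • (1 : Module.End (ResidueField 𝒪) ρbar.V) else 0
  have hy'T : ∀ v ∈ T, y' v = y v - m - a v • (1 : Module.End (ResidueField 𝒪) ρbar.V) :=
    fun v hv => if_pos hv
  refine ⟨(t, y'), ⟨ht, fun v hv => ⟨?_, fun σ hσ => ?_⟩, fun v hv => if_neg hv⟩, m,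
    fun σ => ?_, fun v hv => ⟨a v, ?_⟩⟩
  · show LinearMap.trace (ResidueField 𝒪) ρbar.V (y' v) = 0
    rw [hy'T v hv, map_sub, map_smul, htr1, smul_eq_mul]
    simp only [a]
    field_simp
    ring
  · show t σ = ρbar.ρ σ * y' v * ρbar.ρ σ⁻¹ - y' v
    have h1 := hm σ
    have h3 := hy v hv σ hσ
    rw [Pi.sub_apply, h3] at h1
    rw [hy'T v hv, mul_sub, sub_mul, mul_sub, sub_mul, hconj]
    have h4 : t σ = ρbar.ρ σ * y v * ρbar.ρ σ⁻¹ - y v - (ρbar.ρ σ * m * ρbar.ρ σ⁻¹ - m) := by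
      rw [← h1]
      abel
    rw [h4]
    abel
  · show ((c, y) - (t, y')).1 σ = ρbar.ρ σ * m * ρbar.ρ σ⁻¹ - m
    simpa using hm σ
  · show ((c, y) - (t, y')).2 v = m + a v • (1 : Module.End (ResidueField 𝒪) ρbar.V)
    simp only [Prod.mk_sub_mk, Pi.sub_apply, hy'T v hv]
    abel

/-- (VANISHING-WALL) for one residual representation and one prime `q`: the Selmer cocycles
(no condition at `q`) which VANISH on the decomposition group at `Pl q` lie in a space of
dimension `≤ #Q`. -/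
def VanishingWall (q : ℕ) : Prop :=
  ∃ Pl : ℕ → ValuationSubring Qb, (∀ v ∈ Smin ∪ {q}, (Pl v).LiesOverPrime v) ∧
    ∃ D : Submodule (ResidueField 𝒪) (GQ → Module.End (ResidueField 𝒪) ρbar.V),
      IsDualFrame ρbar p D ∧
      ∀ (Λ : ℕ → Submodule (ResidueField 𝒪) (GQ → Module.End (ResidueField 𝒪) ρbar.V))
        (δ : ℕ → ℕ), LocBounds ρbar Pl Λ δ Smin →
        ∀ Q : Finset ℕ, (∀ q' ∈ Q, IsTWPrime ρbar p S q') → Kills ρbar p D Q →
          ∃ 𝒯₀ : Submodule (ResidueField 𝒪) (GQ → Module.End (ResidueField 𝒪) ρbar.V),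
            Module.Finite (ResidueField 𝒪) 𝒯₀ ∧
            Module.finrank (ResidueField 𝒪) 𝒯₀ ≤ Q.card ∧
            ∀ c, IsSelCocycle ρbar Pl Λ Smin ({q} ∪ Q) c →
              (∀ σ ∈ (Pl q).decompositionSubgroup ℚ, c σ = 0) → c ∈ 𝒯₀

/-- **Glue** `VANISHING-WALL(q) ⇐ FRAMED-WALL({q})`. -/
theorem vanishingWall_of_framedWall (q : ℕ) (hw : FramedWall 𝒪 p ρbar S Smin {q}) :
    VanishingWall 𝒪 p ρbar S Smin q := by
  classical
  obtain ⟨Pl, hPl, D, hD, hW⟩ := hw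
  refine ⟨Pl, hPl, D, hD, fun Λ δ hΛ Q hQ hK => ?_⟩
  obtain ⟨F, hFfin, hFdim, hF⟩ := hW Λ δ hΛ Q hQ hK
  have := hFfin
  -- the linear map `(t, y) ↦ t − ∂(y q)`
  let L : ((GQ → Module.End (ResidueField 𝒪) ρbar.V) ×
      (ℕ → Module.End (ResidueField 𝒪) ρbar.V)) →ₗ[ResidueField 𝒪]
      (GQ → Module.End (ResidueField 𝒪) ρbar.V) :=
    { toFun := fun x σ => x.1 σ - (ρbar.ρ σ * x.2 q * ρbar.ρ σ⁻¹ - x.2 q)
      map_add' := fun x y => by
        funext σ
        simp only [Prod.fst_add, Prod.snd_add, Pi.add_apply, mul_add, add_mul]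
        abel
      map_smul' := fun r x => by
        funext σ
        simp only [Prod.smul_fst, Prod.smul_snd, Pi.smul_apply, mul_smul_comm, smul_mul_assoc,
          RingHom.id_apply, smul_sub] }
  refine ⟨F.map L, inferInstance, (Submodule.finrank_map_le L F).trans hFdim, fun c hc h0 => ?_⟩
  have hfr : IsFrameOf ρbar Pl {q} c (fun _ => 0) := by
    intro v hv σ hσ
    rw [Finset.mem_singleton.1 hv] at hσ
    rw [h0 σ hσ]
    simp
  obtain ⟨t, ht, m, hm1, hm2⟩ := hF c (fun _ => 0) hc hfr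
  obtain ⟨a, ha⟩ := hm2 q (Finset.mem_singleton_self q)
  refine ⟨t, ht, funext fun σ => ?_⟩
  have h1 := hm1 σ
  have h2 : t.2 q = -(m + a • (1 : Module.End (ResidueField 𝒪) ρbar.V)) := by
    have : (0 : Module.End (ResidueField 𝒪) ρbar.V) - t.2 q = m + a • 1 := by simpa using ha
    rw [← this]
    abel
  have hconj : ρbar.ρ σ * (a • (1 : Module.End (ResidueField 𝒪) ρbar.V)) * ρbar.ρ σ⁻¹
      = a • 1 := by
    rw [mul_smul_comm, mul_one, smul_mul_assoc, ← map_mul, mul_inv_cancel, map_one]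
  have h3 : c σ = t.1 σ + (ρbar.ρ σ * m * ρbar.ρ σ⁻¹ - m) := by
    have : c σ - t.1 σ = ρbar.ρ σ * m * ρbar.ρ σ⁻¹ - m := by simpa using h1
    rw [← this]
    abel
  show t.1 σ - (ρbar.ρ σ * t.2 q * ρbar.ρ σ⁻¹ - t.2 q) = c σ
  rw [h2, h3, mul_neg, neg_mul, mul_add, add_mul, hconj]
  abel

end

end Fermat.Agent.S38.IA.H183

end
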