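import Fermat.Agent.S38.IA.H183.ToRelSel

/-!
# Row 37 pivot (Ihara avoidance), Galois side — MAIN THEOREM, conditional form (helper183)

`relSel_twPrimes_of` : Taylor–Wiles primes for the deformation problem framed at one prime `q`.

Under `S56.Hyp 𝒪 p ρbar S Smin`, for a prime `q ∉ Smin` (so `ρ̄` is unramified at `q`): there are
`r` and a place `P ∣ q` such that for every `n` there are `r` distinct Taylor–Wiles primes
`q_i ≡ 1 mod p^{n+1}`, `q_i ∉ S ∪ {q}`, with: for EVERY deformation condition `𝒟` which implies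
`base ({q} ∪ Q_n)` on lifts to the dual numbers (`base = S56.ordCond 𝒪 p Smin` or
`S56.flatCond 𝒪 p Smin`; e.g. `𝒟` = type `1` or type `χ` at `q`) and every set `Dset ⊆ G_ℚ`
controlling the decomposition group at `P`:

    `H953.RelSel 𝒪 ρbar 𝒟 Dset r`,

the input of helper953's relative presentation `H953.exists_surjective_of_relSel`
(`B⟦x₁, …, x_r⟧ ↠ R_{Q_n}⟦Y₀, Y₁, Y₂⟧`, `B` the local framed ring at `q`).  The number `r` and the
primes `q_i` do NOT depend on `𝒟`: the same Taylor–Wiles data serve `R¹` and `R^χ`.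

Nothing unproved in this file.
-/

set_option autoImplicit false

open Polynomial IsLocalRing

noncomputable section

namespace Fermat.Agent.S38.IA.H183

open Fermat.Agent.S56 Fermat.Agent.S56.H716

section

variable (𝒪 : Type) [CommRing 𝒪] [IsDomain 𝒪] [IsDiscreteValuationRing 𝒪]
  [IsAdicComplete (maximalIdeal 𝒪) 𝒪] [Finite (ResidueField 𝒪)]
  (p : ℕ) (ρbar : ResidualGaloisRep (ResidueField 𝒪)) (S Smin : Finset ℕ)

/-- The conclusion of the main theorem of the Galois side, for one family `base` of deformation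
conditions. -/
def RelTWPrimes (q : ℕ) (base : Finset ℕ → DefCond 𝒪) : Prop :=
  ∃ (r : ℕ) (P : ValuationSubring Qb), P.LiesOverPrime q ∧
    ∀ n : ℕ, ∃ qv : Fin r → ℕ, Function.Injective qv ∧
      (∀ i, (qv i).Prime ∧ qv i ∉ S ∧ qv i ≠ q ∧ p ^ (n + 1) ∣ qv i - 1) ∧
      (∀ i, ∀ P' : ValuationSubring Qb, P'.LiesOverPrime (qv i) →
        ∀ φ : GQ, P'.IsFrobeniusAt φ (qv i) →
          ∃ α β : ResidueField 𝒪, α ≠ β ∧
            LinearMap.charpoly (ρbar.ρ φ) = (X - C α) * (X - C β)) ∧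
      ∀ 𝒟 : DefCond 𝒪,
        (∀ ρ' : GaloisRepAdic (DualNumber (ResidueField 𝒪)),
          @𝒟 (DualNumber (ResidueField 𝒪)) _ _ (tanAlgebra 𝒪) ρ' →
            @base ({q} ∪ Finset.univ.image qv) (DualNumber (ResidueField 𝒪)) _ _
              (tanAlgebra 𝒪) ρ') →
        ∀ Dset : Set GQ,
          (∀ c, IsAdCocycle ρbar c → (∀ σ ∈ Dset, c σ = 0) →
            ∀ σ ∈ P.decompositionSubgroup ℚ, c σ = 0) →
          H953.RelSel 𝒪 ρbar 𝒟 Dset r

/-- **Taylor–Wiles primes for the problem framed at `q`**, from (TWP) and (REL-SEL-AT) for some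
`S'' ⊇ S ∪ {q}`. -/
theorem relTWPrimes_of (hTWP : TWPrimesStatement) (q : ℕ) (base : Finset ℕ → DefCond 𝒪)
    (h : ∃ S'' : Finset ℕ, S ∪ {q} ⊆ S'' ∧ (∀ q' ∈ S'', q'.Prime) ∧ Hyp 𝒪 p ρbar S'' Smin ∧
      RelSelAt 𝒪 p ρbar S'' Smin q base) :
    RelTWPrimes 𝒪 p ρbar S q base := by
  classical
  obtain ⟨S'', hSS'', -, hyp'', Pl, hPl, D, hD, hsel⟩ := h
  refine ⟨Module.finrank (ResidueField 𝒪) D, Pl q,
    hPl q (Finset.mem_union_right _ (Finset.mem_singleton_self q)), fun n => ?_⟩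
  obtain ⟨qv, hinj, hq, hfrob, hkill⟩ := hTWP 𝒪 p ρbar S'' Smin hyp'' D hD n
  have hqS'' : q ∈ S'' := hSS'' (Finset.mem_union_right _ (Finset.mem_singleton_self q))
  refine ⟨qv, hinj, fun i => ⟨(hq i).1, fun hi => (hq i).2.1 (hSS'' (Finset.mem_union_left _ hi)),
    fun hi => (hq i).2.1 (hi ▸ hqS''), (hq i).2.2⟩, hfrob, fun 𝒟 h𝒟 Dset hDset => ?_⟩
  have hTWQ : ∀ q' ∈ Finset.univ.image qv, IsTWPrime ρbar p S'' q' := by
    intro q' hqQ
    obtain ⟨i, -, rfl⟩ := Finset.mem_image.mp hqQ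
    refine ⟨(hq i).1, (hq i).2.1, ?_, hfrob i⟩
    exact dvd_trans (dvd_pow_self p (Nat.succ_ne_zero n)) (hq i).2.2
  have hQcard : (Finset.univ.image qv).card = Module.finrank (ResidueField 𝒪) D := by
    rw [Finset.card_image_of_injective _ hinj, Finset.card_univ, Fintype.card_fin]
  have := hsel (Finset.univ.image qv) hTWQ hkill 𝒟 h𝒟 Dset hDset
  rwa [hQcard] at this

/-- The main theorem (strict-ordinary half) from the leaves of row S56 and BASE-BIG-OVER. -/
theorem relTWPrimesOrd_of (hTWP : TWPrimesStatement) (hmin : LocMinStatement)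
    (hord : LocOrdPStatement) (hb : BaseBigOverStatement) (hr : RecQSubStatement)
    (hur : UrCountStatement) (hyp : Hyp 𝒪 p ρbar S Smin) (q : ℕ) (hq : q.Prime)
    (hqS : q ∉ Smin) : RelTWPrimes 𝒪 p ρbar S q (ordCond 𝒪 p Smin) :=
  relTWPrimes_of 𝒪 p ρbar S Smin hTWP q (ordCond 𝒪 p Smin)
    (relSelAtOrd_sup 𝒪 p ρbar S Smin hmin hord hb hr hur hyp q hq hqS)

/-- The main theorem (flat half) from the leaves of row S56 and BASE-BIG-OVER. -/
theorem relTWPrimesFlat_of (hTWP : TWPrimesStatement) (hmin : LocMinStatement)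
    (hflat : LocFlatPStatement) (hb : BaseBigOverStatement) (hr : RecQSubStatement)
    (hur : UrCountStatement) (hyp : Hyp 𝒪 p ρbar S Smin) (q : ℕ) (hq : q.Prime)
    (hqS : q ∉ Smin) : RelTWPrimes 𝒪 p ρbar S q (flatCond 𝒪 p Smin) :=
  relTWPrimes_of 𝒪 p ρbar S Smin hTWP q (flatCond 𝒪 p Smin)
    (relSelAtFlat_sup 𝒪 p ρbar S Smin hmin hflat hb hr hur hyp q hq hqS)

end

end Fermat.Agent.S38.IA.H183

end
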