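import Fermat.Agent.S38.IA.H183.Framed
import Fermat.Agent.S56.H596.Odd

/-!
# Row 37 pivot (Ihara avoidance), Galois side — the FRAMED SELMER BOUND (helper183)

The walls of `RelWall.lean`, `Framed.lean` in terms of TANGENT cocycles of the deformation
conditions of row S56 with auxiliary set `T ∪ Q` (`T` = the hard primes, no condition there;
every deformation condition used in Ihara avoidance — type `1`, type `χ` — implies one of these).

* `LocAny` / `locAny_of_local` / `locOrdAny_of` / `locFlatAny_of` : `H716.Loc` for ARBITRARY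
  auxiliary sets (the Taylor–Wiles hypothesis of `H716.Loc` is never used).
* `FramedSelBound 𝒪 p ρbar S Smin T cond` : places `Pl`, a dual frame `D`; for every Taylor–Wiles
  set `Q` killing `D` a space `F` of framed pairs with `dim F ≤ #Q` representing, modulo framed
  coboundaries, all pairs `(c, y)`: `c` a tangent cocycle of type `cond (T ∪ Q)`, `y` a frame of
  `c` along `T`.
* `VanishingSelBound 𝒪 p ρbar S Smin q cond` (`T = {q}`): the tangent cocycles of type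
  `cond ({q} ∪ Q)` VANISHING on `D_{Pl q}` lie in a space of dimension `≤ #Q`.
* `framedSelBoundOrd_sup`, `framedSelBoundFlat_sup`, `vanishingSelBoundOrd_sup`,
  `vanishingSelBoundFlat_sup` : these bounds for some `S'' ⊇ S ∪ T`, from the leaves of row S56
  (LOC-MIN, LOC-SO / LOC-FLAT, REC-Q-SUB, UR-COUNT) and BASE-BIG-OVER (`BaseOver.lean`).

Nothing unproved in this file.
-/

set_option autoImplicit false

open Polynomial IsLocalRing
open scoped TensorProduct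

noncomputable section

namespace Fermat.Agent.S38.IA.H183

open Fermat.Agent.S56 Fermat.Agent.S56.H716

section

variable (𝒪 : Type) [CommRing 𝒪] [IsDomain 𝒪] [IsDiscreteValuationRing 𝒪]
  [IsAdicComplete (maximalIdeal 𝒪) 𝒪]
  (p : ℕ) (ρbar : ResidualGaloisRep (ResidueField 𝒪)) (S Smin T : Finset ℕ)

/-- (LOC-ANY): `H716.Loc` for arbitrary auxiliary sets. -/
def LocAny (cond : Finset ℕ → DefCond 𝒪) : Prop :=
  ∀ Pl : ℕ → ValuationSubring Qb, (∀ v ∈ Smin, (Pl v).LiesOverPrime v) →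
    ∃ (Λ : ℕ → Submodule (ResidueField 𝒪) (GQ → Module.End (ResidueField 𝒪) ρbar.V))
      (δ : ℕ → ℕ), LocBounds ρbar Pl Λ δ Smin ∧
      ∀ (Q : Finset ℕ) (c : GQ → Module.End (ResidueField 𝒪) ρbar.V),
        IsTanCocycle 𝒪 ρbar (cond Q) c → IsSelCocycle ρbar Pl Λ Smin Q c

/-- `LOC-ANY(cond)` from one local bound per place of `Smin` (proof of `H716.loc_of_local`). -/
theorem locAny_of_local (cond : Finset ℕ → DefCond 𝒪)
    (Ty : ℕ → GaloisRepAdic (DualNumber (ResidueField 𝒪)) → Prop) (d : ℕ → ℕ)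
    (hd : ∑ v ∈ Smin, d v ≤ 1)
    (hloc : ∀ v ∈ Smin, ∀ P : ValuationSubring Qb, P.LiesOverPrime v →
      LocalBoundAt ρbar P (Ty v) (d v))
    (hTy : ∀ (Q : Finset ℕ) (ρ' : GaloisRepAdic (DualNumber (ResidueField 𝒪))),
      @cond Q (DualNumber (ResidueField 𝒪)) _ _ (tanAlgebra 𝒪) ρ' →
        (∀ v ∈ Smin, Ty v ρ') ∧ ∀ q : ℕ, q.Prime → q ∉ Smin ∪ Q → ρ'.IsUnramifiedAt q) :
    LocAny 𝒪 ρbar Smin cond := by
  classical
  intro Pl hPl
  let Λ : ℕ → Submodule (ResidueField 𝒪) (GQ → Module.End (ResidueField 𝒪) ρbar.V) :=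
    fun v => if h : v ∈ Smin then (hloc v h (Pl v) (hPl v h)).choose else ⊥
  have hΛ : ∀ v (h : v ∈ Smin), Λ v = (hloc v h (Pl v) (hPl v h)).choose := fun v h => dif_pos h
  refine ⟨Λ, d, ⟨fun v hv => ?_, hd⟩, fun Q c hc => ?_⟩
  · rw [hΛ v hv]
    exact ⟨(hloc v hv (Pl v) (hPl v hv)).choose_spec.1,
      (hloc v hv (Pl v) (hPl v hv)).choose_spec.2.1⟩
  · obtain ⟨hcoc, ρ', hl, hcond⟩ := hc
    obtain ⟨hT, hur⟩ := hTy Q ρ' hcond
    refine ⟨hcoc, fun q hq hqn => unramAt_of_isLiftOf ρbar hl (hur q hq hqn), fun v hv => ?_⟩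
    rw [hΛ v hv]
    exact (hloc v hv (Pl v) (hPl v hv)).choose_spec.2.2 c hcoc ⟨ρ', hl, hT v hv⟩

/-- (FRAMED-SELBOUND) for a family of conditions indexed by the auxiliary set. -/
def FramedSelBound (cond : Finset ℕ → DefCond 𝒪) : Prop :=
  ∃ Pl : ℕ → ValuationSubring Qb, (∀ v ∈ Smin ∪ T, (Pl v).LiesOverPrime v) ∧
    ∃ D : Submodule (ResidueField 𝒪) (GQ → Module.End (ResidueField 𝒪) ρbar.V),
      IsDualFrame ρbar p D ∧
      ∀ Q : Finset ℕ, (∀ q ∈ Q, IsTWPrime ρbar p S q) → Kills ρbar p D Q →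
        ∃ F : Submodule (ResidueField 𝒪)
            ((GQ → Module.End (ResidueField 𝒪) ρbar.V) ×
              (ℕ → Module.End (ResidueField 𝒪) ρbar.V)),
          Module.Finite (ResidueField 𝒪) F ∧
          Module.finrank (ResidueField 𝒪) F ≤ Q.card ∧
          ∀ c y, IsTanCocycle 𝒪 ρbar (cond (T ∪ Q)) c → IsFrameOf ρbar Pl T c y →
            ∃ t ∈ F, IsFramedCoboundary ρbar T ((c, y) - t)

/-- `FRAMED-SELBOUND(cond) ⇐ LOC-ANY(cond) + FRAMED-WALL`. -/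
theorem framedSelBound_of (cond : Finset ℕ → DefCond 𝒪)
    (hloc : LocAny 𝒪 ρbar Smin cond) (hw : FramedWall 𝒪 p ρbar S Smin T) :
    FramedSelBound 𝒪 p ρbar S Smin T cond := by
  obtain ⟨Pl, hPl, D, hD, hW⟩ := hw
  obtain ⟨Λ, δ, hb, hsel⟩ := hloc Pl fun v hv => hPl v (Finset.mem_union_left _ hv)
  refine ⟨Pl, hPl, D, hD, fun Q hQ hK => ?_⟩
  obtain ⟨F, hF1, hF2, hF3⟩ := hW Λ δ hb Q hQ hK
  exact ⟨F, hF1, hF2, fun c y hc hy => hF3 c y (hsel (T ∪ Q) c hc) hy⟩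

/-- (VANISHING-SELBOUND) for a family of conditions indexed by the auxiliary set, `T = {q}`. -/
def VanishingSelBound (q : ℕ) (cond : Finset ℕ → DefCond 𝒪) : Prop :=
  ∃ Pl : ℕ → ValuationSubring Qb, (∀ v ∈ Smin ∪ {q}, (Pl v).LiesOverPrime v) ∧
    ∃ D : Submodule (ResidueField 𝒪) (GQ → Module.End (ResidueField 𝒪) ρbar.V),
      IsDualFrame ρbar p D ∧
      ∀ Q : Finset ℕ, (∀ q' ∈ Q, IsTWPrime ρbar p S q') → Kills ρbar p D Q →
        ∃ 𝒯₀ : Submodule (ResidueField 𝒪) (GQ → Module.End (ResidueField 𝒪) ρbar.V),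
          Module.Finite (ResidueField 𝒪) 𝒯₀ ∧
          Module.finrank (ResidueField 𝒪) 𝒯₀ ≤ Q.card ∧
          ∀ c, IsTanCocycle 𝒪 ρbar (cond ({q} ∪ Q)) c →
            (∀ σ ∈ (Pl q).decompositionSubgroup ℚ, c σ = 0) → c ∈ 𝒯₀

/-- `VANISHING-SELBOUND(cond) ⇐ LOC-ANY(cond) + VANISHING-WALL`. -/
theorem vanishingSelBound_of (q : ℕ) (cond : Finset ℕ → DefCond 𝒪)
    (hloc : LocAny 𝒪 ρbar Smin cond) (hw : VanishingWall 𝒪 p ρbar S Smin q) :
    VanishingSelBound 𝒪 p ρbar S Smin q cond := by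
  obtain ⟨Pl, hPl, D, hD, hW⟩ := hw
  obtain ⟨Λ, δ, hb, hsel⟩ := hloc Pl fun v hv => hPl v (Finset.mem_union_left _ hv)
  refine ⟨Pl, hPl, D, hD, fun Q hQ hK => ?_⟩
  obtain ⟨𝒯₀, h1, h2, h3⟩ := hW Λ δ hb Q hQ hK
  exact ⟨𝒯₀, h1, h2, fun c hc h0 => h3 c (hsel ({q} ∪ Q) c hc) h0⟩

end

section

variable (𝒪 : Type) [CommRing 𝒪] [IsDomain 𝒪] [IsDiscreteValuationRing 𝒪]
  [IsAdicComplete (maximalIdeal 𝒪) 𝒪] [Finite (ResidueField 𝒪)]
  (p : ℕ) (ρbar : ResidualGaloisRep (ResidueField 𝒪)) (S Smin : Finset ℕ)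

/-- (LOC-ANY-ord) from the local leaves (LOC-MIN) and (LOC-SO). -/
theorem locOrdAny_of (hmin : LocMinStatement) (hord : LocOrdPStatement)
    (hyp : Hyp 𝒪 p ρbar S Smin) : LocAny 𝒪 ρbar Smin (ordCond 𝒪 p Smin) := by
  classical
  refine locAny_of_local 𝒪 ρbar Smin (ordCond 𝒪 p Smin)
    (fun v ρ' => if v = p then ρ'.DetIsCyclotomic p ∧ ρ'.IsStrictOrdinaryAt p
      else ρ'.DetIsCyclotomic p ∧ ρ'.IsUnipotentOnInertiaAt v)
    (fun v => if v = p then 1 else 0) (sum_defect_le_one p Smin) ?_ ?_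
  · intro v hv P hP
    by_cases hvp : v = p
    · subst hvp
      simpa using hord 𝒪 v ρbar S Smin hyp P hP
    · simpa [hvp] using hmin 𝒪 p ρbar S Smin hyp v hv hvp P hP
  · rintro Q ρ' ⟨⟨hdet, hso, hur⟩, huni⟩
    refine ⟨fun v hv => ?_, hur⟩
    by_cases hvp : v = p
    · simp only [hvp, if_true]
      exact ⟨hdet, hso⟩
    · simp only [hvp, if_false]
      exact ⟨hdet, huni v hv (hyp.hS v (hyp.hSmin hv)) hvp⟩

/-- (LOC-ANY-flat) from the local leaves (LOC-MIN) and (LOC-FLAT). -/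
theorem locFlatAny_of (hmin : LocMinStatement) (hflat : LocFlatPStatement)
    (hyp : Hyp 𝒪 p ρbar S Smin) : LocAny 𝒪 ρbar Smin (flatCond 𝒪 p Smin) := by
  classical
  refine locAny_of_local 𝒪 ρbar Smin (flatCond 𝒪 p Smin)
    (fun v ρ' => if v = p then ρ'.DetIsCyclotomic p ∧ ρ'.IsFlatAt p
      else ρ'.DetIsCyclotomic p ∧ ρ'.IsUnipotentOnInertiaAt v)
    (fun v => if v = p then 1 else 0) (sum_defect_le_one p Smin) ?_ ?_
  · intro v hv P hP
    by_cases hvp : v = p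
    · subst hvp
      simpa using hflat 𝒪 v ρbar S Smin hyp P hP
    · simpa [hvp] using hmin 𝒪 p ρbar S Smin hyp v hv hvp P hP
  · rintro Q ρ' ⟨⟨hdet, hfl, hur⟩, huni⟩
    refine ⟨fun v hv => ?_, hur⟩
    by_cases hvp : v = p
    · simp only [hvp, if_true]
      exact ⟨hdet, hfl⟩
    · simp only [hvp, if_false]
      exact ⟨hdet, huni v hv (hyp.hS v (hyp.hSmin hv)) hvp⟩

/-- (FRAMED-WALL) for some `S'' ⊇ S ∪ T`, from the leaves of row S56. -/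
theorem exists_framedWall_sup (hb : BaseBigOverStatement) (hr : RecQSubStatement)
    (hur : UrCountStatement) (hyp : Hyp 𝒪 p ρbar S Smin)
    (T : Finset ℕ) (hT : ∀ q ∈ T, q.Prime) (hdisj : Disjoint Smin T) :
    ∃ S'' : Finset ℕ, S ∪ T ⊆ S'' ∧ (∀ q ∈ S'', q.Prime) ∧ Hyp 𝒪 p ρbar S'' Smin ∧
      FramedWall 𝒪 p ρbar S'' Smin T := by
  obtain ⟨S'', h1, h2, hyp'', hw⟩ := exists_relWall_sup 𝒪 p ρbar S Smin hb hr hur hyp T hT hdisj
  exact ⟨S'', h1, h2, hyp'',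
    framedWall_of_relWall 𝒪 p ρbar S'' Smin T (H596.two_ne_zero_of_hyp hyp) hw⟩

/-- **(FRAMED-SELBOUND-ord)** for some `S'' ⊇ S ∪ T`, from the leaves. -/
theorem framedSelBoundOrd_sup (hmin : LocMinStatement) (hord : LocOrdPStatement)
    (hb : BaseBigOverStatement) (hr : RecQSubStatement) (hur : UrCountStatement)
    (hyp : Hyp 𝒪 p ρbar S Smin)
    (T : Finset ℕ) (hT : ∀ q ∈ T, q.Prime) (hdisj : Disjoint Smin T) :
    ∃ S'' : Finset ℕ, S ∪ T ⊆ S'' ∧ (∀ q ∈ S'', q.Prime) ∧ Hyp 𝒪 p ρbar S'' Smin ∧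
      FramedSelBound 𝒪 p ρbar S'' Smin T (ordCond 𝒪 p Smin) := by
  obtain ⟨S'', h1, h2, hyp'', hw⟩ :=
    exists_framedWall_sup 𝒪 p ρbar S Smin hb hr hur hyp T hT hdisj
  exact ⟨S'', h1, h2, hyp'', framedSelBound_of 𝒪 p ρbar S'' Smin T (ordCond 𝒪 p Smin)
    (locOrdAny_of 𝒪 p ρbar S'' Smin hmin hord hyp'') hw⟩

/-- **(FRAMED-SELBOUND-flat)** for some `S'' ⊇ S ∪ T`, from the leaves. -/
theorem framedSelBoundFlat_sup (hmin : LocMinStatement) (hflat : LocFlatPStatement)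
    (hb : BaseBigOverStatement) (hr : RecQSubStatement) (hur : UrCountStatement)
    (hyp : Hyp 𝒪 p ρbar S Smin)
    (T : Finset ℕ) (hT : ∀ q ∈ T, q.Prime) (hdisj : Disjoint Smin T) :
    ∃ S'' : Finset ℕ, S ∪ T ⊆ S'' ∧ (∀ q ∈ S'', q.Prime) ∧ Hyp 𝒪 p ρbar S'' Smin ∧
      FramedSelBound 𝒪 p ρbar S'' Smin T (flatCond 𝒪 p Smin) := by
  obtain ⟨S'', h1, h2, hyp'', hw⟩ :=
    exists_framedWall_sup 𝒪 p ρbar S Smin hb hr hur hyp T hT hdisj
  exact ⟨S'', h1, h2, hyp'', framedSelBound_of 𝒪 p ρbar S'' Smin T (flatCond 𝒪 p Smin)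
    (locFlatAny_of 𝒪 p ρbar S'' Smin hmin hflat hyp'') hw⟩

/-- **(VANISHING-SELBOUND-ord)** at one prime `q ∉ Smin`, for some `S'' ⊇ S ∪ {q}`. -/
theorem vanishingSelBoundOrd_sup (hmin : LocMinStatement) (hord : LocOrdPStatement)
    (hb : BaseBigOverStatement) (hr : RecQSubStatement) (hur : UrCountStatement)
    (hyp : Hyp 𝒪 p ρbar S Smin) (q : ℕ) (hq : q.Prime) (hqS : q ∉ Smin) :
    ∃ S'' : Finset ℕ, S ∪ {q} ⊆ S'' ∧ (∀ q' ∈ S'', q'.Prime) ∧ Hyp 𝒪 p ρbar S'' Smin ∧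
      VanishingSelBound 𝒪 p ρbar S'' Smin q (ordCond 𝒪 p Smin) := by
  obtain ⟨S'', h1, h2, hyp'', hw⟩ :=
    exists_framedWall_sup 𝒪 p ρbar S Smin hb hr hur hyp {q}
      (fun q' hq' => by rw [Finset.mem_singleton.1 hq']; exact hq)
      (Finset.disjoint_singleton_right.2 hqS)
  exact ⟨S'', h1, h2, hyp'', vanishingSelBound_of 𝒪 p ρbar S'' Smin q (ordCond 𝒪 p Smin)
    (locOrdAny_of 𝒪 p ρbar S'' Smin hmin hord hyp'')
    (vanishingWall_of_framedWall 𝒪 p ρbar S'' Smin q hw)⟩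

/-- **(VANISHING-SELBOUND-flat)** at one prime `q ∉ Smin`, for some `S'' ⊇ S ∪ {q}`. -/
theorem vanishingSelBoundFlat_sup (hmin : LocMinStatement) (hflat : LocFlatPStatement)
    (hb : BaseBigOverStatement) (hr : RecQSubStatement) (hur : UrCountStatement)
    (hyp : Hyp 𝒪 p ρbar S Smin) (q : ℕ) (hq : q.Prime) (hqS : q ∉ Smin) :
    ∃ S'' : Finset ℕ, S ∪ {q} ⊆ S'' ∧ (∀ q' ∈ S'', q'.Prime) ∧ Hyp 𝒪 p ρbar S'' Smin ∧
      VanishingSelBound 𝒪 p ρbar S'' Smin q (flatCond 𝒪 p Smin) := by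
  obtain ⟨S'', h1, h2, hyp'', hw⟩ :=
    exists_framedWall_sup 𝒪 p ρbar S Smin hb hr hur hyp {q}
      (fun q' hq' => by rw [Finset.mem_singleton.1 hq']; exact hq)
      (Finset.disjoint_singleton_right.2 hqS)
  exact ⟨S'', h1, h2, hyp'', vanishingSelBound_of 𝒪 p ρbar S'' Smin q (flatCond 𝒪 p Smin)
    (locFlatAny_of 𝒪 p ρbar S'' Smin hmin hflat hyp'')
    (vanishingWall_of_framedWall 𝒪 p ρbar S'' Smin q hw)⟩

end

end Fermat.Agent.S38.IA.H183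

end
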