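import Fermat.Agent.S38.IA.H183.SharpWall

/-!
# Row 37 pivot (Ihara avoidance), Galois side — the RELATIVE WALL (helper183)

Plain-function language of `Fermat/Agent/S56/H716`.  `Smin` = `p` and the primes where `ρ̄` is
ramified (as in `S56.Hyp`), `T` = a finite set of further primes (the "hard" primes `q`, where the
two local lifting rings `R¹`, `R^χ` of Taylor's Ihara avoidance live), `Q` = Taylor–Wiles primes.

* `IsRelSelCocycle ρbar Pl Λ Smin T Q c` — `c` is a Selmer cocycle of type `Λ` at `Smin`,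
  unramified outside `Smin ∪ T ∪ Q`, and a COBOUNDARY on `D_{Pl v}` for every `v ∈ T`
  (= tangent vectors of the global deformation ring RELATIVE to the local lifting rings at `T`).
* `RelWall 𝒪 p ρbar S Smin T` — there are places `Pl` and a dual frame `D` (chosen BEFORE the local
  spaces at `Smin`: the Taylor–Wiles primes are the same for all local conditions) such that for
  local spaces `Λ` at `Smin` with `LocBounds` (`∑ δ ≤ 1`) and every Taylor–Wiles set `Q` killing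
  `D`, the relative Selmer cocycles are represented modulo coboundaries by a space `𝒯` with

      `dim 𝒯 + ∑_{v ∈ T} h⁰(D_{Pl v}, ad⁰ρ̄) ≤ #Q`.

* `relWall_of_sharpWall`, `exists_relWall_sup` (from the leaves BASE-BIG-OVER, REC-Q-SUB,
  UR-COUNT of row S56).

Nothing unproved in this file.
-/

set_option autoImplicit false

open Polynomial IsLocalRing

noncomputable section

namespace Fermat.Agent.S38.IA.H183

open Fermat.Agent.S56 Fermat.Agent.S56.H716

section

variable {k : Type} [Field k] (ρbar : ResidualGaloisRep k)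

/-- Relative Selmer cocycles: Selmer of type `Λ` at `Smin`, unramified outside `Smin ∪ T ∪ Q`,
coboundaries on the decomposition groups at the places `Pl v`, `v ∈ T`. -/
structure IsRelSelCocycle (Pl : ℕ → ValuationSubring Qb)
    (Λ : ℕ → Submodule k (GQ → Module.End k ρbar.V)) (Smin T Q : Finset ℕ)
    (c : GQ → Module.End k ρbar.V) : Prop where
  sel : IsSelCocycle ρbar Pl Λ Smin (T ∪ Q) c
  strict : ∀ v ∈ T, IsAdCoboundaryOn ρbar ((Pl v).decompositionSubgroup ℚ) c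

end

section

variable (𝒪 : Type) [CommRing 𝒪] [IsDomain 𝒪] [IsDiscreteValuationRing 𝒪]
  (p : ℕ) (ρbar : ResidualGaloisRep (ResidueField 𝒪)) (S Smin T : Finset ℕ)

/-- (REL-WALL) for one residual representation: the Greenberg–Wiles inequality for the Selmer
conditions which are strict at `T`. -/
def RelWall : Prop :=
  ∃ Pl : ℕ → ValuationSubring Qb, (∀ v ∈ Smin ∪ T, (Pl v).LiesOverPrime v) ∧
    ∃ D : Submodule (ResidueField 𝒪) (GQ → Module.End (ResidueField 𝒪) ρbar.V),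
      IsDualFrame ρbar p D ∧
      ∀ (Λ : ℕ → Submodule (ResidueField 𝒪) (GQ → Module.End (ResidueField 𝒪) ρbar.V))
        (δ : ℕ → ℕ), LocBounds ρbar Pl Λ δ Smin →
        ∀ Q : Finset ℕ, (∀ q ∈ Q, IsTWPrime ρbar p S q) → Kills ρbar p D Q →
          ∃ 𝒯 : Submodule (ResidueField 𝒪) (GQ → Module.End (ResidueField 𝒪) ρbar.V),
            Module.Finite (ResidueField 𝒪) 𝒯 ∧
            Module.finrank (ResidueField 𝒪) 𝒯 +
                ∑ v ∈ T, Module.finrank (ResidueField 𝒪)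
                  (adInv ρbar ((Pl v).decompositionSubgroup ℚ))
              ≤ Q.card ∧
            ∀ c, IsRelSelCocycle ρbar Pl Λ Smin T Q c → ∃ t ∈ 𝒯, IsAdCoboundary ρbar (c - t)

/-- **Glue** `REL-WALL(S, Smin, T) ⇐ SHARP-WALL(S, S') + UR-COUNT` for `Smin ∪ T ⊆ S' ⊆ S`. -/
theorem relWall_of_sharpWall (S' : Finset ℕ) (hSS' : Smin ∪ T ⊆ S') (hS'S : S' ⊆ S)
    (hdisj : Disjoint Smin T) (hS'prime : ∀ q ∈ S', q.Prime)
    (hw : SharpWall 𝒪 p ρbar S S')
    (hur : ∀ v : ℕ, v.Prime → v ∉ Smin → ∀ P : ValuationSubring Qb, P.LiesOverPrime v →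
      ∃ Λ : Submodule (ResidueField 𝒪) (GQ → Module.End (ResidueField 𝒪) ρbar.V),
        Module.Finite (ResidueField 𝒪) Λ ∧
        Module.finrank (ResidueField 𝒪) Λ ≤
          Module.finrank (ResidueField 𝒪) (adInv ρbar (P.decompositionSubgroup ℚ)) ∧
        ∀ c, IsAdCocycle ρbar c → UnramAt ρbar c v →
          ∃ t ∈ Λ, IsAdCoboundaryOn ρbar (P.decompositionSubgroup ℚ) (c - t)) :
    RelWall 𝒪 p ρbar S Smin T := by
  classical
  obtain ⟨Pl, hPl, D, hD, -, hW⟩ := hw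
  refine ⟨Pl, fun v hv => hPl v (hSS' hv), D, hD, fun Λ δ hΛ Q hQ hK => ?_⟩
  have hQS : ∀ q ∈ Q, q ∉ S' := fun q hq h => (hQ q hq).2.1 (hS'S h)
  have hTS' : T ⊆ S' := fun v hv => hSS' (Finset.mem_union_right _ hv)
  have hSminS' : Smin ⊆ S' := fun v hv => hSS' (Finset.mem_union_left _ hv)
  have hTSmin : ∀ v ∈ T, v ∉ Smin := fun v hv h => (Finset.disjoint_left.1 hdisj h) hv
  -- the local spaces on `S'`
  let Λ' : ℕ → Submodule (ResidueField 𝒪) (GQ → Module.End (ResidueField 𝒪) ρbar.V) :=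
    fun v => if h : v ∈ Smin then Λ v else
      if v ∈ T then ⊥ else
        if h' : v ∈ S' then (hur v (hS'prime v h') h (Pl v) (hPl v h')).choose else ⊥
  have hΛ'1 : ∀ v, v ∈ Smin → Λ' v = Λ v := fun v h => dif_pos h
  have hΛ'T : ∀ v, v ∈ T → Λ' v = ⊥ := fun v h => by
    simp only [Λ', dif_neg (hTSmin v h), if_pos h]
  have hΛ'2 : ∀ v (h : v ∉ Smin) (_ : v ∉ T) (h' : v ∈ S'),
      Λ' v = (hur v (hS'prime v h') h (Pl v) (hPl v h')).choose := fun v h hT h' => by
    simp only [Λ', dif_neg h, if_neg hT, dif_pos h']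
  let h0 : ℕ → ℕ := fun v =>
    Module.finrank (ResidueField 𝒪) (adInv ρbar ((Pl v).decompositionSubgroup ℚ))
  let dd : ℕ → ℕ := fun v => if v ∈ Smin then δ v else 0
  let tt : ℕ → ℕ := fun v => if v ∈ T then h0 v else 0
  have hfin' : ∀ v ∈ S', Module.Finite (ResidueField 𝒪) (Λ' v) := by
    intro v hvS'
    by_cases h : v ∈ Smin
    · rw [hΛ'1 v h]
      exact (hΛ.1 v h).1
    · by_cases hT : v ∈ T
      · rw [hΛ'T v hT]
        infer_instance
      · rw [hΛ'2 v h hT hvS']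
        exact (hur v (hS'prime v hvS') h (Pl v) (hPl v hvS')).choose_spec.1
  have hbound' : ∀ v ∈ S',
      Module.finrank (ResidueField 𝒪) (Λ' v) + tt v ≤ h0 v + dd v := by
    intro v hvS'
    by_cases h : v ∈ Smin
    · have hT : v ∉ T := fun hT => hTSmin v hT h
      rw [hΛ'1 v h]
      simpa [dd, tt, h0, h, hT] using (hΛ.1 v h).2
    · by_cases hT : v ∈ T
      · rw [hΛ'T v hT]
        simp [dd, tt, h0, h, hT]
      · rw [hΛ'2 v h hT hvS']
        simpa [dd, tt, h0, h, hT] using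
          (hur v (hS'prime v hvS') h (Pl v) (hPl v hvS')).choose_spec.2.1
  have hsel' : ∀ c, IsRelSelCocycle ρbar Pl Λ Smin T Q c → IsSelCocycle ρbar Pl Λ' S' Q c := by
    intro c hc
    refine ⟨hc.sel.cocycle, fun q hq hqn => hc.sel.unram q hq fun hq' => hqn ?_, fun v hvS' => ?_⟩
    · rcases Finset.mem_union.1 hq' with h | h
      · exact Finset.mem_union_left _ (hSminS' h)
      · rcases Finset.mem_union.1 h with h1 | h1
        · exact Finset.mem_union_left _ (hTS' h1)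
        · exact Finset.mem_union_right _ h1
    · by_cases h : v ∈ Smin
      · rw [hΛ'1 v h]
        exact hc.sel.loc v h
      · by_cases hT : v ∈ T
        · rw [hΛ'T v hT]
          refine ⟨0, Submodule.zero_mem _, ?_⟩
          rw [sub_zero]
          exact hc.strict v hT
        · rw [hΛ'2 v h hT hvS']
          refine (hur v (hS'prime v hvS') h (Pl v) (hPl v hvS')).choose_spec.2.2 c
            hc.sel.cocycle (hc.sel.unram v (hS'prime v hvS') fun hv' => ?_)
          rcases Finset.mem_union.1 hv' with h1 | h1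
          · exact h h1
          · rcases Finset.mem_union.1 h1 with h2 | h2
            · exact hT h2
            · exact hQS v h2 hvS'
  obtain ⟨𝒯, h𝒯fin, h𝒯dim, h𝒯⟩ := hW Λ' hfin' Q hQ hK
  refine ⟨𝒯, h𝒯fin, ?_, fun c hc => h𝒯 c (hsel' c hc)⟩
  have h2 : ∑ v ∈ S', Module.finrank (ResidueField 𝒪) (Λ' v) + ∑ v ∈ S', tt v ≤
      ∑ v ∈ S', h0 v + ∑ v ∈ S', dd v := by
    rw [← Finset.sum_add_distrib, ← Finset.sum_add_distrib]
    exact Finset.sum_le_sum hbound'
  have h3 : ∑ v ∈ S', dd v = ∑ v ∈ Smin, δ v := by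
    rw [← Finset.sum_subset hSminS' (f := dd) fun v _ hv => by simp [dd, hv]]
    exact Finset.sum_congr rfl fun v hv => by simp [dd, hv]
  have h4 : ∑ v ∈ S', tt v = ∑ v ∈ T, h0 v := by
    rw [← Finset.sum_subset hTS' (f := tt) fun v _ hv => by simp [tt, hv]]
    exact Finset.sum_congr rfl fun v hv => by simp [tt, hv]
  have h7 := hΛ.2
  have hdim' : Module.finrank (ResidueField 𝒪) 𝒯 + ∑ v ∈ S', h0 v + 1 ≤
      Q.card + ∑ v ∈ S', Module.finrank (ResidueField 𝒪) (Λ' v) := h𝒯dim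
  have hgoal : Module.finrank (ResidueField 𝒪) 𝒯 + ∑ v ∈ T, h0 v ≤ Q.card := by omega
  exact hgoal

end

/-- (BASE-BIG-OVER): (BASE) for some finite set of primes containing `Smin` and any prescribed
finite set `T` of primes.  (Same proof as `H716.BaseBigStatement`: Tate's Euler characteristic
formula is available for all big enough sets.) -/
def BaseBigOverStatement : Prop :=
  ∀ (𝒪 : Type) [CommRing 𝒪] [IsDomain 𝒪] [IsDiscreteValuationRing 𝒪]
    [IsAdicComplete (maximalIdeal 𝒪) 𝒪] [Finite (ResidueField 𝒪)]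
    (p : ℕ) (ρbar : ResidualGaloisRep (ResidueField 𝒪)) (S Smin : Finset ℕ),
    Hyp 𝒪 p ρbar S Smin → ∀ T : Finset ℕ, (∀ q ∈ T, q.Prime) →
      ∃ S' : Finset ℕ, Smin ∪ T ⊆ S' ∧ (∀ q ∈ S', q.Prime) ∧ Base 𝒪 p ρbar S'

section

variable (𝒪 : Type) [CommRing 𝒪] [IsDomain 𝒪] [IsDiscreteValuationRing 𝒪]
  [IsAdicComplete (maximalIdeal 𝒪) 𝒪] [Finite (ResidueField 𝒪)]
  (p : ℕ) (ρbar : ResidualGaloisRep (ResidueField 𝒪)) (S Smin : Finset ℕ)

/-- (SHARP-WALL) for some `S'' ⊇ S ∪ T`, relative to a set `S'` with `Smin ∪ T ⊆ S' ⊆ S''`,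
from the leaves of row S56. -/
theorem exists_sharpWall_sup (hb : BaseBigOverStatement) (hr : RecQSubStatement)
    (hyp : Hyp 𝒪 p ρbar S Smin) (T : Finset ℕ) (hT : ∀ q ∈ T, q.Prime) :
    ∃ S'' S' : Finset ℕ, S ∪ T ⊆ S'' ∧ (∀ q ∈ S'', q.Prime) ∧ Smin ∪ T ⊆ S' ∧ S' ⊆ S'' ∧
      Hyp 𝒪 p ρbar S'' Smin ∧ SharpWall 𝒪 p ρbar S'' S' := by
  classical
  obtain ⟨S₀, hS₀, hS₀prime, hbase⟩ := hb 𝒪 p ρbar S Smin hyp T hT
  have hprime : ∀ q ∈ S ∪ S₀, q.Prime := fun q hq => by
    rcases Finset.mem_union.1 hq with h | h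
    · exact hyp.hS q h
    · exact hS₀prime q h
  have hyp'' : Hyp 𝒪 p ρbar (S ∪ S₀) Smin :=
    hyp_mono 𝒪 p ρbar S Smin hyp Finset.subset_union_left hprime
  have hSminS₀ : Smin ⊆ S₀ := fun v hv => hS₀ (Finset.mem_union_left _ hv)
  refine ⟨S ∪ S₀, S₀, fun v hv => ?_, hprime, hS₀, Finset.subset_union_right, hyp'',
    sharpWall_of_base_recQ 𝒪 p ρbar (S ∪ S₀) S₀ hbase
      (hr 𝒪 p ρbar (S ∪ S₀) Smin hyp'' S₀ hSminS₀ Finset.subset_union_right)⟩
  rcases Finset.mem_union.1 hv with h | h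
  · exact Finset.mem_union_left _ h
  · exact Finset.mem_union_right _ (hS₀ (Finset.mem_union_right _ h))

/-- (REL-WALL) for some `S'' ⊇ S ∪ T`, from the leaves of row S56. -/
theorem exists_relWall_sup (hb : BaseBigOverStatement) (hr : RecQSubStatement)
    (hur : UrCountStatement) (hyp : Hyp 𝒪 p ρbar S Smin)
    (T : Finset ℕ) (hT : ∀ q ∈ T, q.Prime) (hdisj : Disjoint Smin T) :
    ∃ S'' : Finset ℕ, S ∪ T ⊆ S'' ∧ (∀ q ∈ S'', q.Prime) ∧ Hyp 𝒪 p ρbar S'' Smin ∧
      RelWall 𝒪 p ρbar S'' Smin T := by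
  obtain ⟨S'', S', hSS'', hprime, hS', hS'S'', hyp'', hw⟩ :=
    exists_sharpWall_sup 𝒪 p ρbar S Smin hb hr hyp T hT
  exact ⟨S'', hSS'', hprime, hyp'',
    relWall_of_sharpWall 𝒪 p ρbar S'' Smin T S' hS' hS'S'' hdisj
      (fun q hq => hprime q (hS'S'' hq)) hw (hur 𝒪 p ρbar S'' Smin hyp'')⟩

end

end Fermat.Agent.S38.IA.H183

end
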