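import Fermat.Agent.S56.H716.GWGlue4

/-!
# Row 37 pivot (Ihara avoidance), Galois side — the SHARP WALL (helper183)

Plain-function language of `Fermat/Agent/S56/H716` (`c : G_ℚ → End_k V`, `M = ad⁰ρ̄`).

The wall `H716.GWWall` of row S56 is stated for local spaces `Λ v` (`v ∈ Smin`) with
`dim Λ v ≤ h⁰(D_v, M) + δ v`, `∑ δ v ≤ 1`, and concludes `dim ≤ #Q`.  Its proof gives more: the
places `Pl` and the dual frame `D` do NOT depend on the local spaces, and the inequality is
*sharp* in the local spaces.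

* `SharpWall 𝒪 p ρbar S S'` : there are places `Pl` over `S'` and a dual frame `D`, unramified
  outside `S'`, such that for ARBITRARY finite-dimensional local spaces `Λ v` (`v ∈ S'`) and every
  set `Q` of Taylor–Wiles primes (relative to `S`) killing `D` the Selmer cocycles of `(Λ, S', Q)`
  are represented, modulo coboundaries, by a space `T` with

      `dim T + ∑_{v ∈ S'} h⁰(D_{Pl v}, M) + 1 ≤ #Q + ∑_{v ∈ S'} dim Λ v`.

* `sharpWall_of_base_recQ : H716.Base 𝒪 p ρbar S' → H716.RecQ 𝒪 p ρbar S S' → SharpWall 𝒪 p ρbar S S'`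
  (the proof of `H716.gwWall_of_base_sub`, with the bookkeeping of the local spaces removed).

Taking `Λ v = ⊥` at a set `T ⊆ S'` of primes gains `∑_{v ∈ T} h⁰(D_{Pl v}, M)` (`= 3 #T` when
`ρ̄(D_v)` is scalar): this is the count of the framed deformation problem relative to the local
lifting rings at `T` (see `RelWall.lean`).

Nothing unproved in this file.
-/

set_option autoImplicit false

open Polynomial IsLocalRing

noncomputable section

namespace Fermat.Agent.S38.IA.H183

open Fermat.Agent.S56 Fermat.Agent.S56.H716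

section

variable (𝒪 : Type) [CommRing 𝒪] [IsDomain 𝒪] [IsDiscreteValuationRing 𝒪]
  (p : ℕ) (ρbar : ResidualGaloisRep (ResidueField 𝒪)) (S S' : Finset ℕ)

/-- (SHARP-WALL) for one residual representation and one set `S'` of primes: the
Greenberg–Wiles inequality in its sharp form, for arbitrary local spaces on `S'`.  The places and
the dual frame are chosen before the local spaces. -/
def SharpWall : Prop :=
  ∃ Pl : ℕ → ValuationSubring Qb, (∀ v ∈ S', (Pl v).LiesOverPrime v) ∧
    ∃ D : Submodule (ResidueField 𝒪) (GQ → Module.End (ResidueField 𝒪) ρbar.V),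
      IsDualFrame ρbar p D ∧
      (∀ y ∈ D, ∀ q : ℕ, q.Prime → q ∉ S' → UnramAt ρbar y q) ∧
      ∀ Λ : ℕ → Submodule (ResidueField 𝒪) (GQ → Module.End (ResidueField 𝒪) ρbar.V),
        (∀ v ∈ S', Module.Finite (ResidueField 𝒪) (Λ v)) →
        ∀ Q : Finset ℕ, (∀ q ∈ Q, IsTWPrime ρbar p S q) → Kills ρbar p D Q →
          ∃ T : Submodule (ResidueField 𝒪) (GQ → Module.End (ResidueField 𝒪) ρbar.V),
            Module.Finite (ResidueField 𝒪) T ∧
            Module.finrank (ResidueField 𝒪) T +
                ∑ v ∈ S', Module.finrank (ResidueField 𝒪)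
                  (adInv ρbar ((Pl v).decompositionSubgroup ℚ)) + 1
              ≤ Q.card + ∑ v ∈ S', Module.finrank (ResidueField 𝒪) (Λ v) ∧
            ∀ c, IsSelCocycle ρbar Pl Λ S' Q c → ∃ t ∈ T, IsAdCoboundary ρbar (c - t)

/-- **Glue** `SHARP-WALL(S, S') ⇐ BASE(S') + REC-Q(S, S')`. -/
theorem sharpWall_of_base_recQ (hb : Base 𝒪 p ρbar S') (hr : RecQ 𝒪 p ρbar S S') :
    SharpWall 𝒪 p ρbar S S' := by
  classical
  obtain ⟨Pl, hPl, D, X, hD, hDur, hXfin, hX, hdim⟩ := hb
  refine ⟨Pl, hPl, D, hD, hDur, fun Λ hΛ Q hQ hK => ?_⟩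
  obtain ⟨U, hUfin, hUdim, hU⟩ := hr Pl hPl D hD hDur Q hQ hK
  obtain ⟨W, hWfin, hWdim, hW⟩ := exists_local_lift ρbar Pl Λ S' Q hΛ
  have := hXfin
  have := hUfin
  have := hWfin
  refine ⟨W ⊔ U ⊔ X, inferInstance, ?_, fun c hc => ?_⟩
  · have h1 : Module.finrank (ResidueField 𝒪) ↥(W ⊔ U ⊔ X) ≤
        Module.finrank (ResidueField 𝒪) W + Module.finrank (ResidueField 𝒪) U +
          Module.finrank (ResidueField 𝒪) X :=
      (Submodule.finrank_add_le_finrank_add_finrank (W ⊔ U) X).trans
        (Nat.add_le_add_right (Submodule.finrank_add_le_finrank_add_finrank W U) _)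
    omega
  · obtain ⟨w, hw, hcw⟩ := hW c hc
    obtain ⟨u, hu, c', hc', hcob⟩ := hU (c - w) hcw
    obtain ⟨x, hx, hcob'⟩ := hX c' hc'
    refine ⟨w + u + x, Submodule.add_mem _ (Submodule.add_mem _
      (Submodule.mem_sup_left (Submodule.mem_sup_left hw))
      (Submodule.mem_sup_left (Submodule.mem_sup_right hu)))
      (Submodule.mem_sup_right hx), ?_⟩
    have := hcob.add ρbar hcob'
    rwa [show c - w - u - c' + (c' - x) = c - (w + u + x) by abel] at this

end

end Fermat.Agent.S38.IA.H183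

end
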