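import Fermat.Agent.S38.IA.H183.RelSel
import Fermat.Agent.S38.H953.RelP1

/-!
# Row 37 pivot (Ihara avoidance), Galois side — REL-SEL from the walls (helper183)

helper953's relative presentation `H953.exists_surjective_of_relSel` (REL-P1,
`Fermat/Agent/S38/H953/RelP1.lean`) consumes

    `H953.RelSel 𝒪 ρbar 𝒟 Dset r` : the tangent cocycles of type `𝒟`, and the cocycles which are
    coboundaries, VANISHING on the set `Dset ⊆ G_ℚ` lie in a space of dimension `≤ r`.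

This file produces it, with `r = #Q`, from the vanishing wall of `Framed.lean`:

* `isSelCocycle_of_isAdCoboundary` : a cocycle which is a coboundary is a Selmer cocycle for any
  local spaces (`ρ̄` is unramified outside `Smin`).
* `RelSelAt 𝒪 p ρbar S Smin q base` : places `Pl`, a dual frame `D`; for every Taylor–Wiles set
  `Q` killing `D`, EVERY deformation condition `𝒟` which implies `base ({q} ∪ Q)` on lifts to
  the dual numbers, and EVERY set `Dset` such that a cocycle vanishing on `Dset` vanishes on the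
  decomposition group at `Pl q` (e.g. `Dset = D_{Pl q}`, or a tame pair `{φ, σ}` at `Pl q` by
  helper1's `locGenCocycle`):  `H953.RelSel 𝒪 ρbar 𝒟 Dset #Q`.
* `relSelAt_of_vanishingWall`, `relSelAtOrd_sup`, `relSelAtFlat_sup` (from the leaves of row S56
  and BASE-BIG-OVER).

Nothing unproved in this file.
-/

set_option autoImplicit false

open Polynomial IsLocalRing

noncomputable section

namespace Fermat.Agent.S38.IA.H183

open Fermat.Agent.S56 Fermat.Agent.S56.H716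

section

variable {𝒪 : Type} [CommRing 𝒪] [IsDomain 𝒪] [IsDiscreteValuationRing 𝒪]
  {p : ℕ} {ρbar : ResidualGaloisRep (ResidueField 𝒪)} {S Smin : Finset ℕ}

/-- A cocycle which is a coboundary is a Selmer cocycle, for any places, local spaces and
auxiliary set. -/
theorem isSelCocycle_of_isAdCoboundary (hyp : Hyp 𝒪 p ρbar S Smin)
    (Pl : ℕ → ValuationSubring Qb)
    (Λ : ℕ → Submodule (ResidueField 𝒪) (GQ → Module.End (ResidueField 𝒪) ρbar.V))
    (Q : Finset ℕ) {c : GQ → Module.End (ResidueField 𝒪) ρbar.V}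
    (hc : IsAdCocycle ρbar c) (hb : IsAdCoboundary ρbar c) :
    IsSelCocycle ρbar Pl Λ Smin Q c := by
  obtain ⟨m, hm⟩ := hb
  refine ⟨hc, fun q hq hqn P hP σ hσ => ?_, fun v _ => ⟨0, Submodule.zero_mem _, m, fun σ _ => ?_⟩⟩
  · have hqSmin : q ∉ Smin := fun h => hqn (Finset.mem_union_left _ h)
    have hqp : q ≠ p := fun h => hqSmin (h ▸ hyp.hpSmin)
    have hur : ρbar.IsUnramifiedAt q := by
      by_contra hcon
      exact hqSmin ((hyp.hmin q hq hqp).2 hcon)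
    have h1 : ρbar.ρ σ = 1 := hur P hP σ hσ
    have h2 : ρbar.ρ σ⁻¹ = 1 := hur P hP σ⁻¹ (inv_mem hσ)
    rw [hm σ, h1, h2, one_mul, mul_one, sub_self]
  · rw [sub_zero]
    exact hm σ

end

section

variable (𝒪 : Type) [CommRing 𝒪] [IsDomain 𝒪] [IsDiscreteValuationRing 𝒪]
  [IsAdicComplete (maximalIdeal 𝒪) 𝒪]
  (p : ℕ) (ρbar : ResidualGaloisRep (ResidueField 𝒪)) (S Smin : Finset ℕ)

/-- (REL-SEL-AT) the input `H953.RelSel` of the relative presentation at one prime `q`, with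
`r = #Q`, for all deformation conditions finer than `base ({q} ∪ Q)`. -/
def RelSelAt (q : ℕ) (base : Finset ℕ → DefCond 𝒪) : Prop :=
  ∃ Pl : ℕ → ValuationSubring Qb, (∀ v ∈ Smin ∪ {q}, (Pl v).LiesOverPrime v) ∧
    ∃ D : Submodule (ResidueField 𝒪) (GQ → Module.End (ResidueField 𝒪) ρbar.V),
      IsDualFrame ρbar p D ∧
      ∀ Q : Finset ℕ, (∀ q' ∈ Q, IsTWPrime ρbar p S q') → Kills ρbar p D Q →
        ∀ 𝒟 : DefCond 𝒪,
          (∀ ρ' : GaloisRepAdic (DualNumber (ResidueField 𝒪)),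
            @𝒟 (DualNumber (ResidueField 𝒪)) _ _ (tanAlgebra 𝒪) ρ' →
              @base ({q} ∪ Q) (DualNumber (ResidueField 𝒪)) _ _ (tanAlgebra 𝒪) ρ') →
          ∀ Dset : Set GQ,
            (∀ c, IsAdCocycle ρbar c → (∀ σ ∈ Dset, c σ = 0) →
              ∀ σ ∈ (Pl q).decompositionSubgroup ℚ, c σ = 0) →
            H953.RelSel 𝒪 ρbar 𝒟 Dset Q.card

/-- `REL-SEL-AT(base) ⇐ LOC-ANY(base) + VANISHING-WALL`. -/
theorem relSelAt_of_vanishingWall (hyp : Hyp 𝒪 p ρbar S Smin) (q : ℕ)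
    (base : Finset ℕ → DefCond 𝒪) (hloc : LocAny 𝒪 ρbar Smin base)
    (hw : VanishingWall 𝒪 p ρbar S Smin q) : RelSelAt 𝒪 p ρbar S Smin q base := by
  obtain ⟨Pl, hPl, D, hD, hW⟩ := hw
  obtain ⟨Λ, δ, hb, hsel⟩ := hloc Pl fun v hv => hPl v (Finset.mem_union_left _ hv)
  refine ⟨Pl, hPl, D, hD, fun Q hQ hK 𝒟 h𝒟 Dset hDset => ?_⟩
  obtain ⟨𝒯₀, h1, h2, h3⟩ := hW Λ δ hb Q hQ hK
  refine ⟨𝒯₀, h1, h2, fun c hc h0 => ?_⟩
  rcases hc with hc | ⟨hc, hcb⟩
  · obtain ⟨hcoc, ρ', hl, hcond⟩ := hc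
    exact h3 c (hsel ({q} ∪ Q) c ⟨hcoc, ρ', hl, h𝒟 ρ' hcond⟩) (hDset c hcoc h0)
  · exact h3 c (isSelCocycle_of_isAdCoboundary hyp Pl Λ ({q} ∪ Q) hc hcb) (hDset c hc h0)

end

section

variable (𝒪 : Type) [CommRing 𝒪] [IsDomain 𝒪] [IsDiscreteValuationRing 𝒪]
  [IsAdicComplete (maximalIdeal 𝒪) 𝒪] [Finite (ResidueField 𝒪)]
  (p : ℕ) (ρbar : ResidualGaloisRep (ResidueField 𝒪)) (S Smin : Finset ℕ)

/-- (VANISHING-WALL) at one prime `q ∉ Smin`, for some `S'' ⊇ S ∪ {q}`, from the leaves. -/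
theorem exists_vanishingWall_sup (hb : BaseBigOverStatement) (hr : RecQSubStatement)
    (hur : UrCountStatement) (hyp : Hyp 𝒪 p ρbar S Smin) (q : ℕ) (hq : q.Prime)
    (hqS : q ∉ Smin) :
    ∃ S'' : Finset ℕ, S ∪ {q} ⊆ S'' ∧ (∀ q' ∈ S'', q'.Prime) ∧ Hyp 𝒪 p ρbar S'' Smin ∧
      VanishingWall 𝒪 p ρbar S'' Smin q := by
  obtain ⟨S'', h1, h2, hyp'', hw⟩ :=
    exists_framedWall_sup 𝒪 p ρbar S Smin hb hr hur hyp {q}
      (fun q' hq' => by rw [Finset.mem_singleton.1 hq']; exact hq)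
      (Finset.disjoint_singleton_right.2 hqS)
  exact ⟨S'', h1, h2, hyp'', vanishingWall_of_framedWall 𝒪 p ρbar S'' Smin q hw⟩

/-- **(REL-SEL-AT-ord)** at one prime `q ∉ Smin`, for some `S'' ⊇ S ∪ {q}`, from the leaves. -/
theorem relSelAtOrd_sup (hmin : LocMinStatement) (hord : LocOrdPStatement)
    (hb : BaseBigOverStatement) (hr : RecQSubStatement) (hur : UrCountStatement)
    (hyp : Hyp 𝒪 p ρbar S Smin) (q : ℕ) (hq : q.Prime) (hqS : q ∉ Smin) :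
    ∃ S'' : Finset ℕ, S ∪ {q} ⊆ S'' ∧ (∀ q' ∈ S'', q'.Prime) ∧ Hyp 𝒪 p ρbar S'' Smin ∧
      RelSelAt 𝒪 p ρbar S'' Smin q (ordCond 𝒪 p Smin) := by
  obtain ⟨S'', h1, h2, hyp'', hw⟩ :=
    exists_vanishingWall_sup 𝒪 p ρbar S Smin hb hr hur hyp q hq hqS
  exact ⟨S'', h1, h2, hyp'', relSelAt_of_vanishingWall 𝒪 p ρbar S'' Smin hyp'' q
    (ordCond 𝒪 p Smin) (locOrdAny_of 𝒪 p ρbar S'' Smin hmin hord hyp'') hw⟩

/-- **(REL-SEL-AT-flat)** at one prime `q ∉ Smin`, for some `S'' ⊇ S ∪ {q}`, from the leaves. -/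
theorem relSelAtFlat_sup (hmin : LocMinStatement) (hflat : LocFlatPStatement)
    (hb : BaseBigOverStatement) (hr : RecQSubStatement) (hur : UrCountStatement)
    (hyp : Hyp 𝒪 p ρbar S Smin) (q : ℕ) (hq : q.Prime) (hqS : q ∉ Smin) :
    ∃ S'' : Finset ℕ, S ∪ {q} ⊆ S'' ∧ (∀ q' ∈ S'', q'.Prime) ∧ Hyp 𝒪 p ρbar S'' Smin ∧
      RelSelAt 𝒪 p ρbar S'' Smin q (flatCond 𝒪 p Smin) := by
  obtain ⟨S'', h1, h2, hyp'', hw⟩ :=
    exists_vanishingWall_sup 𝒪 p ρbar S Smin hb hr hur hyp q hq hqS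
  exact ⟨S'', h1, h2, hyp'', relSelAt_of_vanishingWall 𝒪 p ρbar S'' Smin hyp'' q
    (flatCond 𝒪 p Smin) (locFlatAny_of 𝒪 p ρbar S'' Smin hmin hflat hyp'') hw⟩

end

end Fermat.Agent.S38.IA.H183

end
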